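/-
S29lib / S30, brick (C) (helper8).  `I`-adic limits of compatible families of matrices over
`ℤ/p^k` in an `I`-adically complete ring `O` with `p ∈ I`.
-/
import Mathlib

set_option autoImplicit false

noncomputable section

namespace Fermat.Agent.S29lib.S30

open Matrix

/-- the ring hom `ℤ/n → R` when `n = 0` in `R` -/
def zmodHom {R : Type*} [CommRing R] (n : ℕ) (h : (n : R) = 0) : ZMod n →+* R :=
  (Ideal.Quotient.lift (Ideal.span {(n : ℤ)}) (Int.castRingHom R) (by
      intro a ha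
      obtain ⟨b, rfl⟩ := Ideal.mem_span_singleton.mp ha
      simp [h])).comp (Int.quotientSpanNatEquivZMod n).symm.toRingHom

variable {O : Type*} [CommRing O] (I : Ideal O) {p : ℕ} (hpI : (p : O) ∈ I)

include hpI in
lemma natCast_pow_quot_eq_zero (k : ℕ) : ((p ^ k : ℕ) : O ⧸ I ^ k) = 0 := by
  have h1 : ((p ^ k : ℕ) : O) ∈ I ^ k := by
    rw [Nat.cast_pow]
    exact Ideal.pow_mem_pow hpI k
  have h2 : ((p ^ k : ℕ) : O ⧸ I ^ k) = Ideal.Quotient.mk (I ^ k) ((p ^ k : ℕ) : O) := by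
    rw [map_natCast]
  rw [h2]
  exact Ideal.Quotient.eq_zero_iff_mem.mpr h1

/-- `ℤ/p^k → O/I^k` -/
def psi (k : ℕ) : ZMod (p ^ k) →+* O ⧸ I ^ k :=
  zmodHom (p ^ k) (natCast_pow_quot_eq_zero I hpI k)

variable {r : ℕ}

/-- `M` is the `I`-adic limit of the family `Mk` -/
def IsLim (M : Matrix (Fin r) (Fin r) O)
    (Mk : ∀ k : ℕ, Matrix (Fin r) (Fin r) (ZMod (p ^ k))) : Prop :=
  ∀ k, M.map (Ideal.Quotient.mk (I ^ k)) = (Mk k).map (psi I hpI k)

lemma IsLim.unique [IsHausdorff I O] {M M' : Matrix (Fin r) (Fin r) O}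
    {Mk : ∀ k : ℕ, Matrix (Fin r) (Fin r) (ZMod (p ^ k))} (h : IsLim I hpI M Mk)
    (h' : IsLim I hpI M' Mk) : M = M' := by
  ext i j
  rw [← sub_eq_zero]
  apply IsHausdorff.haus (I := I) inferInstance
  intro k
  rw [SModEq.sub_mem, sub_zero, smul_eq_mul, Ideal.mul_top, ← Ideal.Quotient.eq]
  have := congrFun (congrFun ((h k).trans (h' k).symm) i) j
  simpa using this

lemma IsLim.one : IsLim I hpI (1 : Matrix (Fin r) (Fin r) O) (fun _ => 1) := by
  intro k
  rw [Matrix.map_one _ (map_zero _) (map_one _), Matrix.map_one _ (map_zero _) (map_one _)]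

lemma IsLim.mul {M M' : Matrix (Fin r) (Fin r) O}
    {Mk Mk' : ∀ k : ℕ, Matrix (Fin r) (Fin r) (ZMod (p ^ k))} (h : IsLim I hpI M Mk)
    (h' : IsLim I hpI M' Mk') : IsLim I hpI (M * M') (fun k => Mk k * Mk' k) := by
  intro k
  rw [Matrix.map_mul, Matrix.map_mul, h k, h' k]

lemma IsLim.add {M M' : Matrix (Fin r) (Fin r) O}
    {Mk Mk' : ∀ k : ℕ, Matrix (Fin r) (Fin r) (ZMod (p ^ k))} (h : IsLim I hpI M Mk)
    (h' : IsLim I hpI M' Mk') : IsLim I hpI (M + M') (fun k => Mk k + Mk' k) := by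
  intro k
  rw [Matrix.map_add _ (map_add _), Matrix.map_add _ (map_add _), h k, h' k]

lemma IsLim.sub {M M' : Matrix (Fin r) (Fin r) O}
    {Mk Mk' : ∀ k : ℕ, Matrix (Fin r) (Fin r) (ZMod (p ^ k))} (h : IsLim I hpI M Mk)
    (h' : IsLim I hpI M' Mk') : IsLim I hpI (M - M') (fun k => Mk k - Mk' k) := by
  intro k
  rw [Matrix.map_sub _ (map_sub _), Matrix.map_sub _ (map_sub _), h k, h' k]

lemma IsLim.zero : IsLim I hpI (0 : Matrix (Fin r) (Fin r) O) (fun _ => 0) := by
  intro k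
  rw [Matrix.map_zero _ (map_zero _), Matrix.map_zero _ (map_zero _)]

/-- integer matrices are the limits of their reductions -/
lemma IsLim.intCast (Mz : Matrix (Fin r) (Fin r) ℤ) :
    IsLim I hpI (Mz.map (Int.cast : ℤ → O))
      (fun k => Mz.map (Int.cast : ℤ → ZMod (p ^ k))) := by
  intro k
  ext i j
  simp

/-- natural number multiples of the identity -/
lemma IsLim.natCast_smul_one (n : ℕ) :
    IsLim I hpI ((n : O) • (1 : Matrix (Fin r) (Fin r) O))
      (fun k => (n : ZMod (p ^ k)) • (1 : Matrix (Fin r) (Fin r) (ZMod (p ^ k)))) := by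
  intro k
  ext i j
  by_cases hij : i = j
  · subst hij
    simp
  · simp [hij]

/-- iterated compatibility -/
lemma map_castHom_of_le {Mk : ∀ k : ℕ, Matrix (Fin r) (Fin r) (ZMod (p ^ k))}
    (hcompat : ∀ k, (Mk (k + 1)).map
      (ZMod.castHom (pow_dvd_pow p (Nat.le_succ k)) (ZMod (p ^ k))) = Mk k)
    {m n : ℕ} (hmn : m ≤ n) :
    (Mk n).map (ZMod.castHom (pow_dvd_pow p hmn) (ZMod (p ^ m))) = Mk m := by
  induction n, hmn using Nat.le_induction with
  | base =>
    ext i j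
    simp
  | succ n hmn ih =>
    rw [← ih, ← hcompat n, Matrix.map_map]
    congr 1
    have := ZMod.castHom_comp (pow_dvd_pow p hmn) (pow_dvd_pow p (Nat.le_succ n))
    exact (congrArg DFunLike.coe this).symm

include hpI in
/-- existence of the limit of a compatible family -/
theorem exists_isLim [IsPrecomplete I O]
    (Mk : ∀ k : ℕ, Matrix (Fin r) (Fin r) (ZMod (p ^ k)))
    (hcompat : ∀ k, (Mk (k + 1)).map
      (ZMod.castHom (pow_dvd_pow p (Nat.le_succ k)) (ZMod (p ^ k))) = Mk k) :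
    ∃ M : Matrix (Fin r) (Fin r) O, IsLim I hpI M Mk := by
  -- entrywise
  have hentry : ∀ i j : Fin r, ∃ L : O, ∀ k,
      Ideal.Quotient.mk (I ^ k) L = psi I hpI k (Mk k i j) := by
    intro i j
    set f : ℕ → O := fun k => (((Mk k i j).cast : ℤ) : O) with hf
    have hfk : ∀ k, Ideal.Quotient.mk (I ^ k) (f k) = psi I hpI k (Mk k i j) := by
      intro k
      rw [hf]
      simp only
      rw [map_intCast, ← map_intCast (psi I hpI k), ZMod.intCast_zmod_cast]
    have hcauchy : ∀ {m n : ℕ}, m ≤ n → f m ≡ f n [SMOD (I ^ m • ⊤ : Submodule O O)] := by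
      intro m n hmn
      rw [SModEq.sub_mem, smul_eq_mul, Ideal.mul_top, ← Ideal.Quotient.eq, hfk m]
      rw [hf]
      simp only
      rw [map_intCast, ← map_intCast (psi I hpI m)]
      congr 1
      have h1 := congrFun (congrFun (map_castHom_of_le hcompat hmn) i) j
      rw [Matrix.map_apply, ZMod.castHom_apply] at h1
      rw [← h1, ZMod.intCast_cast]
    obtain ⟨L, hL⟩ := IsPrecomplete.prec (I := I) inferInstance hcauchy
    refine ⟨L, fun k => ?_⟩
    rw [← hfk k]
    have := hL k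
    rw [SModEq.sub_mem, smul_eq_mul, Ideal.mul_top, ← Ideal.Quotient.eq] at this
    exact this.symm
  choose L hL using hentry
  refine ⟨Matrix.of L, fun k => ?_⟩
  ext i j
  simp [hL i j k]

end Fermat.Agent.S29lib.S30
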