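/-
S29lib / S30, brick (C) (helper8), instantiated: from `ComparisonData N p`, `LocalData N p`, a
complete DVR `O` with `p ∈ 𝔪` and eigenvalues `a ℓ ∈ O` with 2-dimensional simultaneous eigenspace,
a free rank-2 `O`-module with an adically continuous action of `G_ℚ`, unramified outside `Np`, on
which every Frobenius at `ℓ ∤ Np` is killed by `X² - a_ℓ X + ℓ`.
-/
import Fermat.Agent.S29lib.E.Transport
import Fermat.Agent.S29lib.S30.AdicLattice
import Fermat.Prelude.Def_GaloisRep_Adic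

set_option autoImplicit false

noncomputable section

namespace Fermat.Agent.S29lib.S30

open ModularCurve Matrix Fermat.Agent.S29lib.E

/-- `ℚ̄` -/
local notation "Qb" => AlgebraicClosure ℚ
/-- `G_ℚ` -/
local notation "GQ" => (AlgebraicClosure ℚ ≃ₐ[ℚ] AlgebraicClosure ℚ)

variable {N p : ℕ} [NeZero N]

/-- **S30 brick (C), Galois form.** -/
theorem exists_adic_galois (C : ComparisonData N p) (LD : LocalData N p)
    (O : Type) [CommRing O] [IsDomain O] [IsDiscreteValuationRing O]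
    [IsAdicComplete (IsLocalRing.maximalIdeal O) O] (hpO : (p : O) ∈ IsLocalRing.maximalIdeal O)
    (a : Nat.Primes → O) {L : Type} [Field L] (emb : O →+* L) (hemb : Function.Injective emb)
    (hfin : Module.finrank L ↥(⨅ ℓ : Nat.Primes, LinearMap.ker
      (Matrix.toLin' ((C.t ℓ).map (Int.cast : ℤ → L)) - emb (a ℓ) • 1)) = 2) :
    ∃ (V : Submodule O (Fin C.r → O)) (ρ : GQ →* Module.End O V),
      Module.Free O V ∧ Module.Finite O V ∧ Module.finrank O V = 2 ∧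
      GaloisActionIsAdicContinuous O ρ ∧
      (∀ ℓ : ℕ, ℓ.Prime → ¬ ℓ ∣ N * p →
        ∀ A : ValuationSubring Qb, A.LiesOverPrime ℓ → ∀ σ ∈ A.inertiaSubgroupIn ℚ, ρ σ = 1) ∧
      (∀ (ℓ : ℕ) (hℓ : ℓ.Prime), ¬ ℓ ∣ N * p →
        ∀ A : ValuationSubring Qb, A.LiesOverPrime ℓ → ∀ σ : GQ, A.IsFrobeniusAt σ ℓ →
          ρ σ * ρ σ - a ⟨ℓ, hℓ⟩ • ρ σ + (ℓ : O) • (1 : Module.End O V) = 0) := by
  obtain ⟨V, ρ, hfree, hfinite, hrank, hcont, hfix, hfrob⟩ :=
    exists_adic_lattice (torsionSystemOf C) O hpO a emb hemb hfin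
  refine ⟨V, ρ, hfree, hfinite, hrank, ?_, ?_, ?_⟩
  · intro n
    obtain ⟨L', hL', hLfix⟩ := LD.finiteLevel n
    exact ⟨L', hL', fun σ hσ v => hcont n σ
      (fun (x : Tors N (p ^ n)) => Subtype.ext (hLfix σ hσ (x : JZero N) x.2)) v⟩
  · intro ℓ hℓ hℓNp A hA σ hσ
    exact hfix σ (fun k (x : Tors N (p ^ k)) =>
      Subtype.ext (LD.unram ℓ hℓ hℓNp A hA σ hσ k (x : JZero N) x.2))
  · intro ℓ hℓ hℓNp A hA σ hσ
    refine hfrob σ ⟨ℓ, hℓ⟩ ℓ (fun k (x : Tors N (p ^ k)) => ?_)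
    apply frob_tors C k σ ⟨ℓ, hℓ⟩ x
    have h1 := LD.frob ℓ hℓ hℓNp A hA σ hσ k (x : JZero N) x.2
    have hN : ¬ ℓ ∣ N := fun h => hℓNp (dvd_mul_of_dvd_left h p)
    rw [C.TJ_good ⟨ℓ, hℓ⟩ hN, ← natCast_zsmul]
    exact h1

end Fermat.Agent.S29lib.S30
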