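/-
S29lib / S30, brick (C) (helper8), matrix form: the adic lattice in a basis, i.e. a monoid hom
`M : G_ℚ → M₂(O)` which is adically continuous, unramified outside `Np`, and satisfies the Frobenius
quadratic relation at `ℓ ∤ Np` (the input data of the adic block X).
-/
import Fermat.Agent.S29lib.S30.AdicGalois

set_option autoImplicit false

noncomputable section

namespace Fermat.Agent.S29lib.S30

open ModularCurve Matrix Fermat.Agent.S29lib.E

/-- `ℚ̄` -/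
local notation "Qb" => AlgebraicClosure ℚ
/-- `G_ℚ` -/
local notation "GQ" => (AlgebraicClosure ℚ ≃ₐ[ℚ] AlgebraicClosure ℚ)

/-- coordinates of an element of `I • ⊤` lie in `I` -/
lemma repr_mem_of_mem_smul_top {O V ι : Type*} [CommRing O] [AddCommGroup V] [Module O V]
    (b : Module.Basis ι O V) (I : Ideal O) {x : V} (hx : x ∈ I • (⊤ : Submodule O V)) (i : ι) :
    b.repr x i ∈ I := by
  refine Submodule.smul_induction_on hx ?_ ?_
  · intro r hr m _
    rw [map_smul, Finsupp.smul_apply, smul_eq_mul]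
    exact Ideal.mul_mem_right _ _ hr
  · intro x y hx hy
    rw [map_add, Finsupp.add_apply]
    exact Ideal.add_mem _ hx hy

variable {N p : ℕ} [NeZero N]

/-- **S30 brick (C), matrix form.** -/
theorem exists_adic_matrix (C : ComparisonData N p) (LD : LocalData N p)
    (O : Type) [CommRing O] [IsDomain O] [IsDiscreteValuationRing O]
    [IsAdicComplete (IsLocalRing.maximalIdeal O) O] (hpO : (p : O) ∈ IsLocalRing.maximalIdeal O)
    (a : Nat.Primes → O) {L : Type} [Field L] (emb : O →+* L) (hemb : Function.Injective emb)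
    (hfin : Module.finrank L ↥(⨅ ℓ : Nat.Primes, LinearMap.ker
      (Matrix.toLin' ((C.t ℓ).map (Int.cast : ℤ → L)) - emb (a ℓ) • 1)) = 2) :
    ∃ M : GQ →* Matrix (Fin 2) (Fin 2) O,
      (∀ n : ℕ, ∃ L' : IntermediateField ℚ Qb, FiniteDimensional ℚ L' ∧
        ∀ σ : GQ, (∀ x ∈ L', σ x = x) →
          ∀ i j, (M σ - 1) i j ∈ IsLocalRing.maximalIdeal O ^ n) ∧
      (∀ ℓ : ℕ, ℓ.Prime → ¬ ℓ ∣ N * p →
        ∀ A : ValuationSubring Qb, A.LiesOverPrime ℓ → ∀ σ ∈ A.inertiaSubgroupIn ℚ, M σ = 1) ∧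
      (∀ (ℓ : ℕ) (hℓ : ℓ.Prime), ¬ ℓ ∣ N * p →
        ∀ A : ValuationSubring Qb, A.LiesOverPrime ℓ → ∀ σ : GQ, A.IsFrobeniusAt σ ℓ →
          M σ * M σ - a ⟨ℓ, hℓ⟩ • M σ + (ℓ : O) • (1 : Matrix (Fin 2) (Fin 2) O) = 0) := by
  obtain ⟨V, ρ, hfree, hfinite, hrank, hcont, hunram, hfrob⟩ :=
    exists_adic_galois C LD O hpO a emb hemb hfin
  let b : Module.Basis (Fin 2) O V := Module.finBasisOfFinrankEq O V hrank
  let Φ : Module.End O V ≃ₐ[O] Matrix (Fin 2) (Fin 2) O := LinearMap.toMatrixAlgEquiv b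
  let M : GQ →* Matrix (Fin 2) (Fin 2) O := (Φ : Module.End O V →* Matrix (Fin 2) (Fin 2) O).comp ρ
  have hM : ∀ σ, M σ = Φ (ρ σ) := fun σ => rfl
  refine ⟨M, ?_, ?_, ?_⟩
  · intro n
    obtain ⟨L', hL', hL'fix⟩ := hcont n
    refine ⟨L', hL', fun σ hσ i j => ?_⟩
    have h1 : (M σ - 1) i j = b.repr (ρ σ (b j) - b j) i := by
      rw [hM, ← map_one Φ, ← map_sub]
      show LinearMap.toMatrixAlgEquiv b (ρ σ - 1) i j = _
      rw [LinearMap.toMatrixAlgEquiv_apply, LinearMap.sub_apply, Module.End.one_apply]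
    rw [h1]
    exact repr_mem_of_mem_smul_top b _ (hL'fix σ hσ (b j)) i
  · intro ℓ hℓ hℓNp A hA σ hσ
    rw [hM, hunram ℓ hℓ hℓNp A hA σ hσ, map_one]
  · intro ℓ hℓ hℓNp A hA σ hσ
    have h0 := hfrob ℓ hℓ hℓNp A hA σ hσ
    rw [hM]
    generalize a ⟨ℓ, hℓ⟩ = c at h0 ⊢
    have h1 : Φ (ρ σ * ρ σ - c • ρ σ + (ℓ : O) • 1) = 0 := by rw [h0, map_zero]
    have e1 := map_add Φ (ρ σ * ρ σ - c • ρ σ) ((ℓ : O) • 1)
    have e2 := map_sub Φ (ρ σ * ρ σ) (c • ρ σ)
    have e3 := map_mul Φ (ρ σ) (ρ σ)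
    have e4 := map_smul Φ c (ρ σ)
    have e5 := map_smul Φ (ℓ : O) (1 : Module.End O V)
    have e6 := map_one Φ
    rw [e1, e2, e3, e4, e5, e6] at h1
    exact h1

end Fermat.Agent.S29lib.S30
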