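/-
S29lib / S30 (helper4), brick E part 2: in the bad case (some Frobenius with the wrong trace or
determinant) the image of an adic piece is commutative.  For every level `j` the subgroups
`detSub j = {det M ≡ χ mod 𝔪^j}` and `cenSub j = {M σ central mod 𝔪^j}` are open and normal and
cover the Frobenius elements, so `cenSub j` has index `≤ 2` (block X, group form); letting
`j → ∞` the exactly central elements have index `≤ 2`.
-/
import Mathlib
import Fermat.Agent.S29lib.S30.AdicXDef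
import Fermat.Agent.Helper5.FrobExists

set_option autoImplicit false
set_option linter.unusedSectionVars false
set_option linter.style.haveILetI false

noncomputable section

namespace Fermat.Agent.S29lib.S30

open Fermat.Agent.S29lib.X Fermat.Agent.ExtVan.InertiaLift Polynomial Matrix

variable {N p : ℕ} [hpf : Fact p.Prime] {O : Type} [CommRing O] [IsDomain O] [IsLocalRing O]
  [IsAdicComplete (IsLocalRing.maximalIdeal O) O] [CharZero O]
  (hpO : (p : O) ∈ IsLocalRing.maximalIdeal O) {a : Nat.Primes → O} (P : AdicPiece N p O a)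

omit hpf [IsDomain O] [IsLocalRing O] [IsAdicComplete (IsLocalRing.maximalIdeal O) O] [CharZero O] in
lemma ne_of_not_dvd' {ℓ : ℕ} (h : ¬ ℓ ∣ N * p) : ℓ ≠ p := by
  rintro rfl
  exact h (dvd_mul_left _ _)

/-- the elements whose matrix is central modulo `𝔪^j`. -/
def cenSub (j : ℕ) : Subgroup GQ where
  carrier := {σ | ∀ τ : GQ, EntriesIn (IsLocalRing.maximalIdeal O ^ j)
    (P.M σ * P.M τ - P.M τ * P.M σ)}
  one_mem' := by
    intro τ
    rw [map_one, one_mul, mul_one, sub_self]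
    exact EntriesIn.zero _
  mul_mem' := by
    intro σ σ' hσ hσ' τ
    have h : P.M (σ * σ') * P.M τ - P.M τ * P.M (σ * σ') =
        P.M σ * (P.M σ' * P.M τ - P.M τ * P.M σ') + (P.M σ * P.M τ - P.M τ * P.M σ) * P.M σ' := by
      rw [map_mul]; noncomm_ring
    rw [h]
    exact ((hσ' τ).mul_left _).add ((hσ τ).mul_right _)
  inv_mem' := by
    intro σ hσ τ
    have h1 : P.M σ⁻¹ * P.M σ = 1 := by rw [← map_mul, inv_mul_cancel, map_one]
    have h2 : P.M σ * P.M σ⁻¹ = 1 := by rw [← map_mul, mul_inv_cancel, map_one]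
    have h : P.M σ⁻¹ * P.M τ - P.M τ * P.M σ⁻¹ =
        -(P.M σ⁻¹ * (P.M σ * P.M τ - P.M τ * P.M σ) * P.M σ⁻¹) := by
      have e1 : P.M σ⁻¹ * (P.M σ * P.M τ - P.M τ * P.M σ) * P.M σ⁻¹ =
          (P.M σ⁻¹ * P.M σ) * P.M τ * P.M σ⁻¹ - P.M σ⁻¹ * P.M τ * (P.M σ * P.M σ⁻¹) := by
        noncomm_ring
      rw [e1, h1, h2, one_mul, mul_one]
      noncomm_ring
    rw [h]
    exact (((hσ τ).mul_left _).mul_right _).neg

lemma mem_cenSub {j : ℕ} {σ : GQ} : σ ∈ cenSub P j ↔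
    ∀ τ : GQ, EntriesIn (IsLocalRing.maximalIdeal O ^ j) (P.M σ * P.M τ - P.M τ * P.M σ) :=
  Iff.rfl

instance cenSub_normal (j : ℕ) : (cenSub P j).Normal where
  conj_mem := by
    intro σ hσ g τ
    have h1 : P.M g⁻¹ * P.M g = 1 := by rw [← map_mul, inv_mul_cancel, map_one]
    have h2 : P.M g * P.M g⁻¹ = 1 := by rw [← map_mul, mul_inv_cancel, map_one]
    have h : P.M (g * σ * g⁻¹) * P.M τ - P.M τ * P.M (g * σ * g⁻¹) =
        P.M g * (P.M σ * P.M (g⁻¹ * τ * g) - P.M (g⁻¹ * τ * g) * P.M σ) * P.M g⁻¹ := by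
      rw [map_mul, map_mul, map_mul, map_mul]
      have e1 : P.M g * (P.M σ * (P.M g⁻¹ * P.M τ * P.M g) - P.M g⁻¹ * P.M τ * P.M g * P.M σ) *
          P.M g⁻¹ = P.M g * P.M σ * P.M g⁻¹ * P.M τ * (P.M g * P.M g⁻¹) -
            (P.M g * P.M g⁻¹) * P.M τ * (P.M g * P.M σ * P.M g⁻¹) := by
        noncomm_ring
      rw [e1, h2, one_mul, mul_one]
    rw [h]
    exact ((hσ _).mul_left _).mul_right _

lemma cenSub_antitone {j j' : ℕ} (h : j ≤ j') : cenSub P j' ≤ cenSub P j := by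
  intro σ hσ τ
  exact (hσ τ).mono (Ideal.pow_le_pow_right h)

/-- the determinant character. -/
def detU : GQ →* Oˣ := ((Matrix.detMonoidHom : Matrix (Fin 2) (Fin 2) O →* O).comp P.M).toHomUnits

lemma coe_detU (σ : GQ) : ((detU P σ : Oˣ) : O) = (P.M σ).det := rfl

/-- `det / χ`. -/
def detQuot : GQ →* Oˣ := detU P / chiAdic p (IsLocalRing.maximalIdeal O) hpO

/-- the elements with `det M ≡ χ` modulo `𝔪^j`. -/
def detSub (j : ℕ) : Subgroup GQ := (congSub (IsLocalRing.maximalIdeal O ^ j)).comap (detQuot hpO P)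

instance detSub_normal (j : ℕ) : (detSub hpO P j).Normal :=
  (Subgroup.normal_of_comm _).comap _

lemma mem_detSub {j : ℕ} {σ : GQ} : σ ∈ detSub hpO P j ↔
    (P.M σ).det - ((chiAdic p (IsLocalRing.maximalIdeal O) hpO σ : Oˣ) : O) ∈
      IsLocalRing.maximalIdeal O ^ j := by
  rw [detSub, Subgroup.mem_comap, mem_congSub, detQuot, MonoidHom.div_apply]
  set χ := chiAdic p (IsLocalRing.maximalIdeal O) hpO σ with hχ
  have h1 : ((detU P σ / χ : Oˣ) : O) - 1 = ((P.M σ).det - (χ : O)) * ((χ⁻¹ : Oˣ) : O) := by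
    rw [div_eq_mul_inv, Units.val_mul, coe_detU, sub_mul, Units.mul_inv]
  have h2 : (P.M σ).det - (χ : O) = (((detU P σ / χ : Oˣ) : O) - 1) * (χ : O) := by
    rw [h1, mul_assoc, Units.inv_mul, mul_one]
  constructor
  · intro h
    rw [h2]
    exact Ideal.mul_mem_right _ _ h
  · intro h
    rw [h1]
    exact Ideal.mul_mem_right _ _ h

include hpO in
/-- the open subgroup on which everything is congruent to `1` modulo `𝔪^j`. -/
lemma exists_open_level (j : ℕ) : ∃ L : IntermediateField ℚ Qb, FiniteDimensional ℚ L ∧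
    ∀ σ : GQ, σ ∈ L.fixingSubgroup →
      EntriesIn (IsLocalRing.maximalIdeal O ^ j) (P.M σ - 1) ∧
      ((chiAdic p (IsLocalRing.maximalIdeal O) hpO σ : Oˣ) : O) - 1 ∈
        IsLocalRing.maximalIdeal O ^ j := by
  obtain ⟨L₀, hL₀fd, hL₀⟩ := P.continuous j
  haveI := hL₀fd
  refine ⟨L₀ ⊔ cycloFieldPow p j, IntermediateField.finiteDimensional_sup _ _, fun σ hσ => ⟨?_, ?_⟩⟩
  · exact hL₀ σ fun x hx =>
      (IntermediateField.mem_fixingSubgroup_iff _ _).mp hσ x (le_sup_left (a := L₀) hx)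
  · exact chiAdic_sub_one_mem _ hpO fun x hx =>
      (IntermediateField.mem_fixingSubgroup_iff _ _).mp hσ x
        (le_sup_right (b := cycloFieldPow p j) hx)

lemma det_sub_one_mem {J : Ideal O} {M : Matrix (Fin 2) (Fin 2) O} (h : EntriesIn J (M - 1)) :
    M.det - 1 ∈ J := by
  have h00 : M 0 0 - 1 ∈ J := by simpa using h 0 0
  have h01 : M 0 1 ∈ J := by simpa using h 0 1
  have h11 : M 1 1 - 1 ∈ J := by simpa using h 1 1
  have e : M.det - 1 = (M 0 0 - 1) + (M 1 1 - 1) + (M 0 0 - 1) * (M 1 1 - 1) - M 0 1 * M 1 0 := by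
    rw [Matrix.det_fin_two]; ring
  rw [e]
  exact J.sub_mem (J.add_mem (J.add_mem h00 h11) (J.mul_mem_left _ h11)) (J.mul_mem_right _ h01)

include hpO in
lemma cenSub_isOpen (j : ℕ) : IsOpen ((cenSub P j : Subgroup GQ) : Set GQ) := by
  obtain ⟨L, hLfd, hL⟩ := exists_open_level hpO P j
  haveI := hLfd
  refine Subgroup.isOpen_mono (H₁ := L.fixingSubgroup) ?_ L.fixingSubgroup_isOpen
  intro σ hσ τ
  have hE := (hL σ hσ).1
  have h : P.M σ * P.M τ - P.M τ * P.M σ = (P.M σ - 1) * P.M τ - P.M τ * (P.M σ - 1) := by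
    noncomm_ring
  rw [h]
  exact (hE.mul_right _).sub (hE.mul_left _)

lemma detSub_isOpen (j : ℕ) : IsOpen ((detSub hpO P j : Subgroup GQ) : Set GQ) := by
  obtain ⟨L, hLfd, hL⟩ := exists_open_level hpO P j
  haveI := hLfd
  refine Subgroup.isOpen_mono (H₁ := L.fixingSubgroup) ?_ L.fixingSubgroup_isOpen
  intro σ hσ
  rw [mem_detSub]
  have h1 := det_sub_one_mem (hL σ hσ).1
  have h2 := (hL σ hσ).2
  have e : (P.M σ).det - ((chiAdic p (IsLocalRing.maximalIdeal O) hpO σ : Oˣ) : O) =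
      ((P.M σ).det - 1) - (((chiAdic p (IsLocalRing.maximalIdeal O) hpO σ : Oˣ) : O) - 1) := by ring
  rw [e]
  exact Ideal.sub_mem _ h1 h2

/-- **Frobenius dichotomy.** -/
theorem frob_dichotomy {ℓ : ℕ} (hℓ : ℓ.Prime) (h : ¬ ℓ ∣ N * p)
    {A : ValuationSubring Qb} (hA : A.LiesOverPrime ℓ) {σ : GQ} (hσ : A.IsFrobeniusAt σ ℓ) :
    ((P.M σ).trace = a ⟨ℓ, hℓ⟩ ∧ (P.M σ).det = (ℓ : O)) ∨
      ∃ c : O, P.M σ = c • (1 : Matrix (Fin 2) (Fin 2) O) ∧
        c * c - a ⟨ℓ, hℓ⟩ * c + (ℓ : O) = 0 :=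
  matrix_dichotomy (P.M σ) (a ⟨ℓ, hℓ⟩) (ℓ : O) (P.frob ℓ hℓ h A hA σ hσ)

/-- entries in all powers of `𝔪` vanish. -/
lemma eq_zero_of_entriesIn_all {Y : Matrix (Fin 2) (Fin 2) O}
    (h : ∀ j : ℕ, EntriesIn (IsLocalRing.maximalIdeal O ^ j) Y) : Y = 0 := by
  ext i k
  exact eq_zero_of_forall_mem_pow (IsLocalRing.maximalIdeal O) fun j => h j i k

include hpO in
/-- **Bad case ⇒ commutative image.** -/
theorem commute_of_bad (hN : N ≠ 0) {ℓ₀ : ℕ} (hℓ₀ : ℓ₀.Prime) (h₀ : ¬ ℓ₀ ∣ N * p)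
    {A₀ : ValuationSubring Qb} (hA₀ : A₀.LiesOverPrime ℓ₀) {σ₀ : GQ}
    (hσ₀ : A₀.IsFrobeniusAt σ₀ ℓ₀)
    (hbad : ¬ ((P.M σ₀).trace = a ⟨ℓ₀, hℓ₀⟩ ∧ (P.M σ₀).det = (ℓ₀ : O))) :
    ∀ σ τ : GQ, Commute (P.M σ) (P.M τ) := by
  classical
  have hp : p.Prime := hpf.out
  set 𝔪 := IsLocalRing.maximalIdeal O with h𝔪
  -- structure of the bad Frobenius
  obtain ⟨c, hc, hquad⟩ : ∃ c : O, P.M σ₀ = c • (1 : Matrix (Fin 2) (Fin 2) O) ∧
      c * c - a ⟨ℓ₀, hℓ₀⟩ * c + (ℓ₀ : O) = 0 := by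
    rcases frob_dichotomy P hℓ₀ h₀ hA₀ hσ₀ with h1 | h2
    · exact absurd h1 hbad
    · exact h2
  have hℓ₀0 : (ℓ₀ : O) ≠ 0 := Nat.cast_ne_zero.mpr hℓ₀.ne_zero
  have hdet₀ : (P.M σ₀).det = c * c := by
    rw [hc, Matrix.det_fin_two]; simp
  have htr₀ : (P.M σ₀).trace = 2 * c := by
    rw [hc, Matrix.trace_fin_two]; simp; ring
  have hcℓ : c * c - (ℓ₀ : O) ≠ 0 := by
    intro hEq
    have hEq' : c * c = (ℓ₀ : O) := sub_eq_zero.mp hEq
    apply hbad
    have hc0 : c ≠ 0 := by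
      rintro rfl
      rw [mul_zero] at hEq'
      exact hℓ₀0 hEq'.symm
    have hab : a ⟨ℓ₀, hℓ₀⟩ = 2 * c := by
      have h1 : c * (2 * c - a ⟨ℓ₀, hℓ₀⟩) = 0 := by
        have : c * (2 * c - a ⟨ℓ₀, hℓ₀⟩) =
            (c * c - a ⟨ℓ₀, hℓ₀⟩ * c + (ℓ₀ : O)) + (c * c - (ℓ₀ : O)) := by ring
        rw [this, hquad, hEq, add_zero]
      have := (mul_eq_zero.mp h1).resolve_left hc0
      exact (sub_eq_zero.mp this).symm
    exact ⟨by rw [htr₀, hab], by rw [hdet₀, hEq']⟩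
  -- the level where the bad Frobenius is seen
  obtain ⟨j₀, hj₀⟩ : ∃ j₀ : ℕ, c * c - (ℓ₀ : O) ∉ 𝔪 ^ j₀ := by
    by_contra hcon
    push Not at hcon
    exact hcℓ (eq_zero_of_forall_mem_pow 𝔪 hcon)
  have hχ₀ : ((chiAdic p 𝔪 hpO σ₀ : Oˣ) : O) = (ℓ₀ : O) :=
    chiAdic_of_isFrobeniusAt 𝔪 hpO hℓ₀ (ne_of_not_dvd' h₀) hA₀ hσ₀
  -- the finite set of excluded primes
  have hNp : N * p ≠ 0 := Nat.mul_ne_zero hN hp.ne_zero
  have hS₀ : ∀ ℓ : ℕ, ℓ.Prime → ℓ ∉ (N * p).primeFactors → ¬ ℓ ∣ N * p := by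
    intro ℓ hℓ hmem hdvd
    exact hmem (Nat.mem_primeFactors.mpr ⟨hℓ, hdvd, hNp⟩)
  -- the covering argument at each level
  have key : ∀ j : ℕ, j₀ ≤ j → ∀ σ τ : GQ,
      σ ∈ cenSub P j ∨ τ ∈ cenSub P j ∨ σ * τ⁻¹ ∈ cenSub P j := by
    intro j hj
    have hne : detSub hpO P j ≠ ⊤ := by
      intro htop
      have h1 : σ₀ ∈ detSub hpO P j := by rw [htop]; exact Subgroup.mem_top _
      rw [mem_detSub, hdet₀, hχ₀] at h1
      exact hj₀ (Ideal.pow_le_pow_right hj h1)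
    exact index_le_two_of_frobenius_cover (detSub hpO P j) (cenSub P j)
      (detSub_isOpen hpO P j) (cenSub_isOpen hpO P j) (N * p).primeFactors
      (fun ℓ hℓ hℓS A hA τ hτ => by
        have hnd := hS₀ ℓ hℓ hℓS
        have h1 : P.M τ = 1 := P.unram ℓ hℓ hnd A hA τ hτ
        refine ⟨?_, ?_⟩
        · rw [mem_detSub, h1, chiAdic_of_mem_inertia 𝔪 hpO hℓ (ne_of_not_dvd' hnd) hA hτ,
            Matrix.det_one, Units.val_one, sub_self]
          exact Ideal.zero_mem _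
        · intro τ'
          rw [h1, one_mul, mul_one, sub_self]
          exact EntriesIn.zero _)
      (fun ℓ hℓ hℓS => by
        have hnd := hS₀ ℓ hℓ hℓS
        obtain ⟨A, σ, hA, hσ⟩ := Fermat.Agent.Helper5.exists_isFrobeniusAt ℓ hℓ
        refine ⟨A, σ, hA, hσ, ?_⟩
        rcases frob_dichotomy P hℓ hnd hA hσ with ⟨-, hd⟩ | ⟨β, hβ, -⟩
        · left
          rw [mem_detSub, hd, chiAdic_of_isFrobeniusAt 𝔪 hpO hℓ (ne_of_not_dvd' hnd) hA hσ,
            sub_self]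
          exact Ideal.zero_mem _
        · right
          intro τ'
          rw [hβ, Matrix.smul_mul, Matrix.mul_smul, Matrix.one_mul, Matrix.mul_one, sub_self]
          exact EntriesIn.zero _)
      hne
  -- passing to the limit
  have hlim : ∀ σ τ : GQ, (∀ j, σ ∈ cenSub P j) ∨ (∀ j, τ ∈ cenSub P j) ∨
      (∀ j, σ * τ⁻¹ ∈ cenSub P j) := by
    intro σ τ
    by_contra hcon
    push Not at hcon
    obtain ⟨⟨j1, h1⟩, ⟨j2, h2⟩, ⟨j3, h3⟩⟩ := hcon
    set j := max j₀ (max j1 (max j2 j3)) with hj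
    have hj0 : j₀ ≤ j := le_max_left _ _
    have hj1 : j1 ≤ j := le_trans (le_max_left _ _) (le_max_right _ _)
    have hj2 : j2 ≤ j :=
      le_trans (le_trans (le_max_left _ _) (le_max_right _ _)) (le_max_right _ _)
    have hj3 : j3 ≤ j :=
      le_trans (le_trans (le_max_right _ _) (le_max_right _ _)) (le_max_right _ _)
    rcases key j hj0 σ τ with h | h | h
    · exact h1 (cenSub_antitone P hj1 h)
    · exact h2 (cenSub_antitone P hj2 h)
    · exact h3 (cenSub_antitone P hj3 h)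
  have hcentral : ∀ σ : GQ, (∀ j, σ ∈ cenSub P j) → ∀ τ : GQ, Commute (P.M σ) (P.M τ) := by
    intro σ hσ τ
    have : P.M σ * P.M τ - P.M τ * P.M σ = 0 :=
      eq_zero_of_entriesIn_all fun j => hσ j τ
    exact sub_eq_zero.mp this
  intro σ τ
  rcases hlim σ τ with h | h | h
  · exact hcentral σ h τ
  · exact (hcentral τ h σ).symm
  · have h1 : P.M σ = P.M (σ * τ⁻¹) * P.M τ := by rw [← map_mul, inv_mul_cancel_right]
    have h2 := hcentral (σ * τ⁻¹) h τ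
    rw [h1]
    exact (h2.mul_left (Commute.refl _))

end Fermat.Agent.S29lib.S30
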