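/-
S29lib / S30 (helper4), brick D part 1: the canonical ring homomorphism `ℤ_[p] →+* O` into a ring
`O` which is `I`-adically complete for an ideal `I ∋ p`.
-/
import Mathlib

set_option autoImplicit false

noncomputable section

namespace Fermat.Agent.S29lib.S30

section ZModToQuot

variable {R : Type*} [CommRing R]

/-- the ring map `ℤ/n → R ⧸ J` when `n ∈ J`. -/
def zmodToQuot (J : Ideal R) (n : ℕ) (h : (n : R) ∈ J) : ZMod n →+* R ⧸ J :=
  (Ideal.Quotient.lift (Ideal.span {(n : ℤ)}) (Int.castRingHom (R ⧸ J)) (by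
    intro a ha
    obtain ⟨b, rfl⟩ := Ideal.mem_span_singleton.mp ha
    have h0 : ((n : ℕ) : R ⧸ J) = 0 := by
      have := Ideal.Quotient.eq_zero_iff_mem.mpr h
      simpa using this
    rw [map_mul, map_natCast, h0, zero_mul])).comp
    ((Int.quotientSpanNatEquivZMod n).symm : ZMod n →+* ℤ ⧸ Ideal.span {(n : ℤ)})

lemma zmodToQuot_intCast (J : Ideal R) (n : ℕ) (h : (n : R) ∈ J) (a : ℤ) :
    zmodToQuot J n h (a : ZMod n) = Ideal.Quotient.mk J (a : R) := by
  rw [map_intCast, map_intCast]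

end ZModToQuot

variable (p : ℕ) [Fact p.Prime] {O : Type*} [CommRing O] (I : Ideal O) [IsAdicComplete I O]
  (hpI : (p : O) ∈ I)

lemma pow_mem_pow_of_mem (n : ℕ) (hpI : (p : O) ∈ I) : ((p ^ n : ℕ) : O) ∈ I ^ n := by
  rw [Nat.cast_pow]
  exact Ideal.pow_mem_pow hpI n

/-- the level `n` map `ℤ_[p] → O ⧸ I ^ n`. -/
def padicLevel (n : ℕ) : ℤ_[p] →+* O ⧸ I ^ n :=
  (zmodToQuot (I ^ n) (p ^ n) (pow_mem_pow_of_mem p I n hpI)).comp (PadicInt.toZModPow n)

lemma padicLevel_compat {m n : ℕ} (hle : m ≤ n) :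
    (Ideal.Quotient.factorPow I hle).comp (padicLevel p I hpI n) = padicLevel p I hpI m := by
  rw [padicLevel, padicLevel, ← PadicInt.zmod_cast_comp_toZModPow m n hle, ← RingHom.comp_assoc,
    ← RingHom.comp_assoc]
  congr 1
  exact RingHom.ext_zmod _ _

/-- **the canonical map `ℤ_[p] → O`**. -/
def padicToRing : ℤ_[p] →+* O :=
  IsAdicComplete.liftRingHom I (padicLevel p I hpI) (fun hle => padicLevel_compat p I hpI hle)

lemma mk_padicToRing (n : ℕ) (x : ℤ_[p]) :
    Ideal.Quotient.mk (I ^ n) (padicToRing p I hpI x) =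
      zmodToQuot (I ^ n) (p ^ n) (pow_mem_pow_of_mem p I n hpI) (PadicInt.toZModPow n x) := by
  rw [padicToRing, IsAdicComplete.mk_liftRingHom]
  rfl

/-- if `x ≡ a mod p^n` (`a` an integer) then `padicToRing x ≡ a mod I^n`. -/
theorem padicToRing_sub_intCast_mem {n : ℕ} {x : ℤ_[p]} {a : ℤ}
    (h : PadicInt.toZModPow n x = (a : ZMod (p ^ n))) :
    padicToRing p I hpI x - (a : O) ∈ I ^ n := by
  rw [← Ideal.Quotient.eq, mk_padicToRing, h, zmodToQuot_intCast]

/-- an element congruent to `0` modulo all powers of `I` is `0`. -/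
theorem eq_zero_of_forall_mem_pow {y : O} (h : ∀ n : ℕ, y ∈ I ^ n) : y = 0 := by
  apply IsHausdorff.haus (inferInstance : IsHausdorff I O) y
  intro n
  rw [SModEq.zero]
  have : (I ^ n • ⊤ : Submodule O O) = I ^ n := by
    simp
  rw [this]
  exact h n

/-- if `x ≡ a mod p^n` for all `n` then `padicToRing x = a`. -/
theorem padicToRing_eq_intCast {x : ℤ_[p]} {a : ℤ}
    (h : ∀ n : ℕ, PadicInt.toZModPow n x = (a : ZMod (p ^ n))) :
    padicToRing p I hpI x = (a : O) := by
  rw [← sub_eq_zero]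
  exact eq_zero_of_forall_mem_pow I fun n => padicToRing_sub_intCast_mem p I hpI (h n)

end Fermat.Agent.S29lib.S30
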