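/-
S29lib / S30 (helper4), brick D part 2: the `p`-adic cyclotomic character of `G_ℚ` with values in
a ring `O` which is `I`-adically complete for an ideal `I ∋ p`: value `ℓ` at Frobenius elements
at `ℓ ≠ p`, trivial on inertia at `ℓ ≠ p`, and congruent to `1` modulo `I ^ n` on the subgroup
fixing the `p^n`-th cyclotomic field.
-/
import Mathlib
import Fermat.Agent.S29lib.S30.PadicToRing
import Fermat.Agent.S29lib.X.Cyclo

set_option autoImplicit false
set_option linter.unusedSectionVars false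

noncomputable section

namespace Fermat.Agent.S29lib.S30

open Fermat.Agent.S29lib.X Fermat.Agent.ExtVan.InertiaLift

variable (p : ℕ) [hpf : Fact p.Prime]

/-- `p ≠ 0` as an instance (local to this file). -/
theorem neZero_of_fact_prime : NeZero p := ⟨hpf.out.ne_zero⟩

attribute [local instance] neZero_of_fact_prime

/-- the `p`-adic cyclotomic character of `G_ℚ`. -/
def chiZp : GQ →* ℤ_[p]ˣ :=
  (cyclotomicCharacter Qb p).comp (MulSemiringAction.toRingAut GQ Qb)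

theorem chiZp_spec (σ : GQ) {n : ℕ} {t : Qb} (ht : t ^ p ^ n = 1) :
    σ t = t ^ (PadicInt.toZModPow n ((chiZp p σ : ℤ_[p]ˣ) : ℤ_[p])).val :=
  cyclotomicCharacter.spec p (MulSemiringAction.toRingAut GQ Qb σ) t ht

variable {p}

/-- **Key lemma** (level `p^n`).  If `σ` lies in the decomposition group of `A | ℓ`, `ℓ ≠ p`, and
acts on the residue field of `A` by `x ↦ x ^ m`, then `χ(σ) ≡ m` modulo `p^n`. -/
theorem toZModPow_chiZp_of_residue_action {A : ValuationSubring Qb} {ℓ : ℕ} (hℓ : ℓ.Prime)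
    (hℓp : ℓ ≠ p) (hA : A.LiesOverPrime ℓ) (σ : GQ) (hdec : σ ∈ A.decompositionSubgroup ℚ)
    (m : ℕ) (hact : ∀ x : IsLocalRing.ResidueField A,
      (⟨σ, hdec⟩ : A.decompositionSubgroup ℚ) • x = x ^ m) (n : ℕ) :
    PadicInt.toZModPow n ((chiZp p σ : ℤ_[p]ˣ) : ℤ_[p]) = (m : ZMod (p ^ n)) := by
  have hp : p.Prime := hpf.out
  rcases Nat.eq_zero_or_pos n with rfl | hn
  · haveI : Subsingleton (ZMod (p ^ 0)) := by
      rw [pow_zero]; infer_instance
    exact Subsingleton.elim _ _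
  obtain ⟨k, rfl⟩ : ∃ k, n = k + 1 := ⟨n - 1, by omega⟩
  haveI : NeZero (p ^ (k + 1)) := ⟨pow_ne_zero _ hp.ne_zero⟩
  obtain ⟨ζ, hζ⟩ := HasEnoughRootsOfUnity.exists_primitiveRoot Qb (p ^ (k + 1))
  have hζA : ζ ∈ A := by
    apply mem_valuationSubring_of_isIntegral_int
    exact ⟨Polynomial.X ^ (p ^ (k + 1)) - 1,
      Polynomial.monic_X_pow_sub_C 1 (pow_ne_zero _ hp.ne_zero), by simp [hζ.pow_eq_one]⟩
  set a : A := ⟨ζ, hζA⟩ with ha
  set z : IsLocalRing.ResidueField A := IsLocalRing.residue A a with hz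
  have hzp : z ^ p ^ (k + 1) = 1 := by
    rw [hz, ← map_pow]
    have : a ^ p ^ (k + 1) = 1 := Subtype.ext (by simpa using hζ.pow_eq_one)
    rw [this, map_one]
  -- `ℓ = 0` in the residue field
  have hℓ0 : (ℓ : IsLocalRing.ResidueField A) = 0 := by
    have h1 : ((ℓ : A) : Qb) ∈ A.nonunits := by
      have h0 : (ℓ : Qb) ∈ A.nonunits := hA
      simpa using h0
    have h2 : (ℓ : A) ∈ IsLocalRing.maximalIdeal A := ValuationSubring.coe_mem_nonunits_iff.mp h1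
    have h3 := (IsLocalRing.residue_eq_zero_iff (ℓ : A)).mpr h2
    simpa using h3
  -- `z ^ (p ^ k) ≠ 1`
  have hz1 : ¬ z ^ p ^ k = 1 := by
    intro h1
    have hζ' : IsPrimitiveRoot (ζ ^ p ^ k) p :=
      hζ.pow (pow_pos hp.pos _) (by rw [pow_succ])
    have hsum : ∑ i ∈ Finset.range p, (ζ ^ p ^ k) ^ i = 0 := hζ'.geom_sum_eq_zero hp.one_lt
    have hsumA : ∑ i ∈ Finset.range p, (a ^ p ^ k) ^ i = 0 := by
      apply Subtype.ext
      simpa using hsum
    have hsumz : ∑ i ∈ Finset.range p, (z ^ p ^ k) ^ i = 0 := by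
      rw [hz]
      simp only [← map_pow, ← map_sum, hsumA, map_zero]
    rw [h1] at hsumz
    simp only [one_pow, Finset.sum_const, Finset.card_range, nsmul_eq_mul, mul_one] at hsumz
    have hcop : Nat.Coprime p ℓ := (Nat.coprime_primes hp hℓ).mpr (Ne.symm hℓp)
    have hone : ((1 : ℕ) : IsLocalRing.ResidueField A) = 0 := by
      have hg := Nat.gcd_eq_gcd_ab p ℓ
      rw [hcop.gcd_eq_one] at hg
      have : ((1 : ℤ) : IsLocalRing.ResidueField A) = 0 := by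
        have h := congrArg (fun n : ℤ => (n : IsLocalRing.ResidueField A)) hg
        simp only [Nat.cast_one, Int.cast_add, Int.cast_mul, Int.cast_natCast] at h
        rw [hsumz, hℓ0, zero_mul, zero_mul, add_zero] at h
        simpa using h
      simpa using this
    simp at hone
  have hord : orderOf z = p ^ (k + 1) := orderOf_eq_prime_pow hz1 hzp
  -- the action of `σ` on `z`
  set c : ℕ := (PadicInt.toZModPow (k + 1) ((chiZp p σ : ℤ_[p]ˣ) : ℤ_[p])).val with hc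
  have hσz : (⟨σ, hdec⟩ : A.decompositionSubgroup ℚ) • z = z ^ c := by
    rw [hz, ← IsLocalRing.ResidueField.residue_smul, ← map_pow]
    congr 1
    apply Subtype.ext
    change σ ζ = ((a ^ c : A) : Qb)
    rw [chiZp_spec p σ hζ.pow_eq_one]
    simp [ha, hc]
  have hpow : z ^ c = z ^ m := by rw [← hσz, hact z]
  have hmod : c ≡ m [MOD p ^ (k + 1)] := by
    have hprim : IsPrimitiveRoot z (p ^ (k + 1)) := by
      have := IsPrimitiveRoot.orderOf z
      rwa [hord] at this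
    have hgen : ∀ n : ℕ, z ^ (n % p ^ (k + 1)) = z ^ n := by
      intro n
      have := pow_mod_orderOf z n
      rwa [hord] at this
    have h1 := hgen c
    have h2 := hgen m
    exact hprim.pow_inj (Nat.mod_lt _ (NeZero.pos _)) (Nat.mod_lt _ (NeZero.pos _))
      (h1.trans (hpow.trans h2.symm))
  have h3 : ((c : ℕ) : ZMod (p ^ (k + 1))) = ((m : ℕ) : ZMod (p ^ (k + 1))) :=
    (ZMod.natCast_eq_natCast_iff _ _ _).mpr hmod
  rw [hc, ZMod.natCast_val, ZMod.cast_id] at h3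
  exact h3

theorem toZModPow_chiZp_of_isFrobeniusAt {A : ValuationSubring Qb} {ℓ : ℕ} (hℓ : ℓ.Prime)
    (hℓp : ℓ ≠ p) (hA : A.LiesOverPrime ℓ) {σ : GQ} (hσ : A.IsFrobeniusAt σ ℓ) (n : ℕ) :
    PadicInt.toZModPow n ((chiZp p σ : ℤ_[p]ˣ) : ℤ_[p]) = (ℓ : ZMod (p ^ n)) := by
  obtain ⟨hdec, hfrob⟩ := hσ
  exact toZModPow_chiZp_of_residue_action hℓ hℓp hA σ hdec ℓ hfrob n

/-- `χ(Frob_ℓ) = ℓ` in `ℤ_p`. -/
theorem chiZp_of_isFrobeniusAt {A : ValuationSubring Qb} {ℓ : ℕ} (hℓ : ℓ.Prime)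
    (hℓp : ℓ ≠ p) (hA : A.LiesOverPrime ℓ) {σ : GQ} (hσ : A.IsFrobeniusAt σ ℓ) :
    ((chiZp p σ : ℤ_[p]ˣ) : ℤ_[p]) = (ℓ : ℤ_[p]) := by
  apply PadicInt.ext_of_toZModPow.mp
  intro n
  rw [toZModPow_chiZp_of_isFrobeniusAt hℓ hℓp hA hσ n, map_natCast]

/-- `χ` is trivial on inertia at `ℓ ≠ p`. -/
theorem chiZp_of_mem_inertia {A : ValuationSubring Qb} {ℓ : ℕ} (hℓ : ℓ.Prime) (hℓp : ℓ ≠ p)
    (hA : A.LiesOverPrime ℓ) {σ : GQ} (hσ : σ ∈ A.inertiaSubgroupIn ℚ) :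
    chiZp p σ = 1 := by
  obtain ⟨σ', hσ', rfl⟩ := hσ
  have hker : MulSemiringAction.toRingAut (A.decompositionSubgroup ℚ)
      (IsLocalRing.ResidueField A) σ' = 1 := hσ'
  have hact : ∀ x : IsLocalRing.ResidueField A,
      (⟨(σ' : GQ), σ'.2⟩ : A.decompositionSubgroup ℚ) • x = x ^ 1 := by
    intro x
    rw [pow_one]
    have := RingEquiv.congr_fun hker x
    simpa using this
  apply Units.ext
  apply PadicInt.ext_of_toZModPow.mp
  intro n
  refine (toZModPow_chiZp_of_residue_action hℓ hℓp hA (σ' : GQ) σ'.2 1 hact n).trans ?_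
  simp

/-- the `p^n`-th cyclotomic field. -/
def cycloFieldPow (p n : ℕ) [Fact p.Prime] : IntermediateField ℚ Qb :=
  IntermediateField.adjoin ℚ
    {(HasEnoughRootsOfUnity.exists_primitiveRoot Qb (p ^ n)).choose}

instance cycloFieldPow_finiteDimensional (n : ℕ) : FiniteDimensional ℚ (cycloFieldPow p n) := by
  have hp : p.Prime := hpf.out
  have hζ := (HasEnoughRootsOfUnity.exists_primitiveRoot Qb (p ^ n)).choose_spec
  apply IntermediateField.adjoin.finiteDimensional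
  exact (hζ.isIntegral (pow_pos hp.pos n)).tower_top
    |> fun h => (h : IsIntegral ℚ _)

/-- on the subgroup fixing the `p^n`-th cyclotomic field, `χ ≡ 1` modulo `p^n`. -/
theorem toZModPow_chiZp_of_fixes {n : ℕ} {σ : GQ} (hσ : ∀ x ∈ cycloFieldPow p n, σ x = x) :
    PadicInt.toZModPow n ((chiZp p σ : ℤ_[p]ˣ) : ℤ_[p]) = 1 := by
  have hp : p.Prime := hpf.out
  rcases Nat.eq_zero_or_pos n with rfl | hn
  · haveI : Subsingleton (ZMod (p ^ 0)) := by
      rw [pow_zero]; infer_instance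
    exact Subsingleton.elim _ _
  haveI : NeZero (p ^ n) := ⟨pow_ne_zero _ hp.ne_zero⟩
  have h1lt : 1 < p ^ n := Nat.one_lt_pow (by omega) hp.one_lt
  haveI : Fact (1 < p ^ n) := ⟨h1lt⟩
  set ζ := (HasEnoughRootsOfUnity.exists_primitiveRoot Qb (p ^ n)).choose with hζdef
  have hζ : IsPrimitiveRoot ζ (p ^ n) :=
    (HasEnoughRootsOfUnity.exists_primitiveRoot Qb (p ^ n)).choose_spec
  have hfix : σ ζ = ζ := hσ ζ (IntermediateField.subset_adjoin ℚ _ (Set.mem_singleton ζ))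
  set c := PadicInt.toZModPow n ((chiZp p σ : ℤ_[p]ˣ) : ℤ_[p]) with hc
  have h1 : ζ ^ c.val = ζ ^ 1 := by
    rw [pow_one, ← chiZp_spec p σ hζ.pow_eq_one, hfix]
  have h2 : c.val = 1 := hζ.pow_inj (ZMod.val_lt c) h1lt h1
  apply ZMod.val_injective
  rw [h2, ZMod.val_one]

/-! ### Values in a complete ring -/

section Complete

variable (p) {O : Type*} [CommRing O] (I : Ideal O) [IsAdicComplete I O] (hpI : (p : O) ∈ I)

/-- the `p`-adic cyclotomic character with values in `Oˣ`. -/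
def chiAdic : GQ →* Oˣ := (Units.map ((padicToRing p I hpI : ℤ_[p] →+* O) : ℤ_[p] →* O)).comp
  (chiZp p)

theorem coe_chiAdic (σ : GQ) :
    ((chiAdic p I hpI σ : Oˣ) : O) = padicToRing p I hpI ((chiZp p σ : ℤ_[p]ˣ) : ℤ_[p]) := rfl

variable {p}

/-- `χ(Frob_ℓ) = ℓ`. -/
theorem chiAdic_of_isFrobeniusAt {A : ValuationSubring Qb} {ℓ : ℕ} (hℓ : ℓ.Prime)
    (hℓp : ℓ ≠ p) (hA : A.LiesOverPrime ℓ) {σ : GQ} (hσ : A.IsFrobeniusAt σ ℓ) :
    ((chiAdic p I hpI σ : Oˣ) : O) = (ℓ : O) := by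
  rw [coe_chiAdic, chiZp_of_isFrobeniusAt hℓ hℓp hA hσ, map_natCast]

/-- `χ` is trivial on inertia at `ℓ ≠ p`. -/
theorem chiAdic_of_mem_inertia {A : ValuationSubring Qb} {ℓ : ℕ} (hℓ : ℓ.Prime) (hℓp : ℓ ≠ p)
    (hA : A.LiesOverPrime ℓ) {σ : GQ} (hσ : σ ∈ A.inertiaSubgroupIn ℚ) :
    chiAdic p I hpI σ = 1 := by
  rw [chiAdic, MonoidHom.comp_apply, chiZp_of_mem_inertia hℓ hℓp hA hσ, map_one]

/-- continuity: on the subgroup fixing the `p^n`-th cyclotomic field, `χ ≡ 1` modulo `I ^ n`. -/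
theorem chiAdic_sub_one_mem {n : ℕ} {σ : GQ} (hσ : ∀ x ∈ cycloFieldPow p n, σ x = x) :
    ((chiAdic p I hpI σ : Oˣ) : O) - 1 ∈ I ^ n := by
  have h := toZModPow_chiZp_of_fixes hσ
  have h' : PadicInt.toZModPow n ((chiZp p σ : ℤ_[p]ˣ) : ℤ_[p]) = ((1 : ℤ) : ZMod (p ^ n)) := by
    rw [h, Int.cast_one]
  have := padicToRing_sub_intCast_mem p I hpI h'
  rwa [Int.cast_one] at this

end Complete

end Fermat.Agent.S29lib.S30
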