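/-
S29lib / S30 (helper4), brick E part 1: the input interface `AdicPiece` of the adic block X, the
2×2 dichotomy over a domain, and matrices with entries in an ideal.
-/
import Mathlib
import Fermat.Prelude.Def_GaloisRep_Adic
import Fermat.Agent.S29lib.S30.CycloAdic

set_option autoImplicit false
set_option linter.unusedSectionVars false
set_option linter.overlappingInstances false

noncomputable section

namespace Fermat.Agent.S29lib.S30

open Fermat.Agent.S29lib.X Fermat.Agent.ExtVan.InertiaLift Polynomial Matrix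

/-- **Adic piece**: a 2×2 matrix representation of `G_ℚ` over `O`, adically continuous, unramified
outside `Np`, on which every Frobenius at `ℓ ∤ Np` is killed by `X² - a_ℓ X + ℓ`. -/
structure AdicPiece (N p : ℕ) (O : Type) [CommRing O] [IsLocalRing O] (a : Nat.Primes → O) where
  /-- the matrices -/
  M : GQ →* Matrix (Fin 2) (Fin 2) O
  continuous : ∀ n : ℕ, ∃ L : IntermediateField ℚ Qb, FiniteDimensional ℚ L ∧
    ∀ σ : GQ, (∀ x ∈ L, σ x = x) → ∀ i j, (M σ - 1) i j ∈ IsLocalRing.maximalIdeal O ^ n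
  unram : ∀ ℓ : ℕ, ℓ.Prime → ¬ ℓ ∣ N * p →
    ∀ A : ValuationSubring Qb, A.LiesOverPrime ℓ → ∀ σ ∈ A.inertiaSubgroupIn ℚ, M σ = 1
  frob : ∀ (ℓ : ℕ) (hℓ : ℓ.Prime), ¬ ℓ ∣ N * p →
    ∀ A : ValuationSubring Qb, A.LiesOverPrime ℓ → ∀ σ : GQ, A.IsFrobeniusAt σ ℓ →
      M σ * M σ - a ⟨ℓ, hℓ⟩ • M σ + (ℓ : O) • (1 : Matrix (Fin 2) (Fin 2) O) = 0

/-! ### The 2×2 dichotomy over a domain -/

section Dichotomy

variable {R : Type*} [CommRing R] [IsDomain R]

/-- a 2×2 matrix over a domain killed by `X² - aX + l` either has trace `a` and determinant `l`,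
or is a scalar root of the quadratic. -/
theorem matrix_dichotomy (M : Matrix (Fin 2) (Fin 2) R) (a l : R)
    (h : M * M - a • M + l • (1 : Matrix (Fin 2) (Fin 2) R) = 0) :
    (M.trace = a ∧ M.det = l) ∨ ∃ c : R, M = c • (1 : Matrix (Fin 2) (Fin 2) R) ∧
      c * c - a * c + l = 0 := by
  have h00 := congrFun (congrFun h 0) 0
  have h01 := congrFun (congrFun h 0) 1
  have h10 := congrFun (congrFun h 1) 0
  have h11 := congrFun (congrFun h 1) 1
  simp only [Matrix.add_apply, Matrix.sub_apply, Matrix.mul_apply, Fin.sum_univ_two,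
    Matrix.smul_apply, Matrix.one_apply, Matrix.zero_apply, smul_eq_mul] at h00 h01 h10 h11
  simp only [Fin.isValue, ↓reduceIte, mul_one, mul_zero, add_zero, zero_ne_one, one_ne_zero]
    at h00 h01 h10 h11
  by_cases ht : M 0 0 + M 1 1 = a
  · left
    refine ⟨by rw [Matrix.trace_fin_two]; exact ht, ?_⟩
    rw [Matrix.det_fin_two]
    linear_combination (-1 : R) * h00 + M 0 0 * ht
  · right
    have hne : M 0 0 + M 1 1 - a ≠ 0 := sub_ne_zero.mpr ht
    have hy : M 0 1 = 0 := by
      have : M 0 1 * (M 0 0 + M 1 1 - a) = 0 := by linear_combination h01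
      exact (mul_eq_zero.mp this).resolve_right hne
    have hz : M 1 0 = 0 := by
      have : M 1 0 * (M 0 0 + M 1 1 - a) = 0 := by linear_combination h10
      exact (mul_eq_zero.mp this).resolve_right hne
    have hxw : M 0 0 = M 1 1 := by
      have : (M 0 0 - M 1 1) * (M 0 0 + M 1 1 - a) = 0 := by
        linear_combination h00 - h11
      exact sub_eq_zero.mp ((mul_eq_zero.mp this).resolve_right hne)
    refine ⟨M 0 0, ?_, ?_⟩
    · ext i j
      fin_cases i <;> fin_cases j <;> simp [hy, hz, hxw]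
    · rw [hy] at h00
      linear_combination h00

theorem charpoly_of_trace_det [Nontrivial R] (M : Matrix (Fin 2) (Fin 2) R) {a l : R}
    (ht : M.trace = a) (hd : M.det = l) : M.charpoly = X ^ 2 - C a * X + C l := by
  rw [Matrix.charpoly_fin_two, ht, hd]

end Dichotomy

/-! ### Matrices with entries in an ideal -/

section EntriesIn

variable {R : Type*} [CommRing R] {n : Type*} [Fintype n] [DecidableEq n]

/-- all entries lie in the ideal `J`. -/
def EntriesIn (J : Ideal R) (Y : Matrix n n R) : Prop := ∀ i k, Y i k ∈ J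

lemma EntriesIn.zero (J : Ideal R) : EntriesIn J (0 : Matrix n n R) := fun _ _ => J.zero_mem

lemma EntriesIn.add {J : Ideal R} {Y Z : Matrix n n R} (hY : EntriesIn J Y) (hZ : EntriesIn J Z) :
    EntriesIn J (Y + Z) := fun i k => J.add_mem (hY i k) (hZ i k)

lemma EntriesIn.sub {J : Ideal R} {Y Z : Matrix n n R} (hY : EntriesIn J Y) (hZ : EntriesIn J Z) :
    EntriesIn J (Y - Z) := fun i k => J.sub_mem (hY i k) (hZ i k)

lemma EntriesIn.neg {J : Ideal R} {Y : Matrix n n R} (hY : EntriesIn J Y) :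
    EntriesIn J (-Y) := fun i k => J.neg_mem (hY i k)

lemma EntriesIn.mul_left {J : Ideal R} {Y : Matrix n n R} (hY : EntriesIn J Y)
    (A : Matrix n n R) : EntriesIn J (A * Y) := fun i k => by
  rw [Matrix.mul_apply]
  exact J.sum_mem fun l _ => J.mul_mem_left _ (hY l k)

lemma EntriesIn.mul_right {J : Ideal R} {Y : Matrix n n R} (hY : EntriesIn J Y)
    (A : Matrix n n R) : EntriesIn J (Y * A) := fun i k => by
  rw [Matrix.mul_apply]
  exact J.sum_mem fun l _ => J.mul_mem_right _ (hY i l)

lemma EntriesIn.mono {J J' : Ideal R} (h : J ≤ J') {Y : Matrix n n R} (hY : EntriesIn J Y) :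
    EntriesIn J' Y := fun i k => h (hY i k)

end EntriesIn

/-! ### Congruence subgroups of the units -/

section CongSub

variable {R : Type*} [CommRing R]

/-- the units congruent to `1` modulo `J`. -/
def congSub (J : Ideal R) : Subgroup Rˣ where
  carrier := {u | (u : R) - 1 ∈ J}
  one_mem' := by simp
  mul_mem' := by
    intro u v hu hv
    have : ((u * v : Rˣ) : R) - 1 = (u : R) * ((v : R) - 1) + ((u : R) - 1) := by
      rw [Units.val_mul]; ring
    show ((u * v : Rˣ) : R) - 1 ∈ J
    rw [this]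
    exact J.add_mem (J.mul_mem_left _ hv) hu
  inv_mem' := by
    intro u hu
    have : ((u⁻¹ : Rˣ) : R) - 1 = -(((u⁻¹ : Rˣ) : R) * ((u : R) - 1)) := by
      rw [mul_sub, Units.inv_mul, mul_one]; ring
    show ((u⁻¹ : Rˣ) : R) - 1 ∈ J
    rw [this]
    exact J.neg_mem (J.mul_mem_left _ hu)

lemma mem_congSub {J : Ideal R} {u : Rˣ} : u ∈ congSub J ↔ (u : R) - 1 ∈ J := Iff.rfl

end CongSub

end Fermat.Agent.S29lib.S30
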