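/-
S29lib / S30 (helper4), brick E part 3: a commuting family of 2×2 matrices over a complete DVR `O`
has an "eigen-character" with values in the units of a finite DVR extension `O₂` of `O`.
(`E` = the commutative `K`-algebra generated by the matrices, `L = E / 𝔫` for a maximal ideal,
`O₂` = the integral closure of `O` in `L`; no eigenvectors needed.)
-/
import Mathlib
import Fermat.Agent.S29lib.S30.AdicXDef
import Fermat.Agent.S29lib.Dvr.IntegralClosure

set_option autoImplicit false
set_option linter.unusedSectionVars false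
set_option linter.style.haveILetI false

noncomputable section

namespace Fermat.Agent.S29lib.S30

open Polynomial Matrix

/-! ### A finite commutative algebra over a field maps to a finite field extension -/

section FieldQuot

open scoped IsMulCommutative in
theorem exists_algHom_field {K : Type} [Field K] {B : Type} [Ring B] [Nontrivial B] [Algebra K B]
    [FiniteDimensional K B] (E : Subalgebra K B) [IsMulCommutative E] :
    ∃ (L : Type) (_ : Field L) (_ : Algebra K L) (_ : FiniteDimensional K L),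
      Nonempty (E →ₐ[K] L) := by
  haveI : Nontrivial E := ⟨⟨0, 1, fun h => zero_ne_one (α := B) (congrArg Subtype.val h)⟩⟩
  obtain ⟨𝔫, h𝔫⟩ := Ideal.exists_maximal E
  letI : Field (E ⧸ 𝔫) := Ideal.Quotient.field 𝔫
  refine ⟨E ⧸ 𝔫, inferInstance, inferInstance, ?_, ⟨Ideal.Quotient.mkₐ K 𝔫⟩⟩
  exact Module.Finite.of_surjective (Ideal.Quotient.mkₐ K 𝔫).toLinearMap
    (Ideal.Quotient.mkₐ_surjective K 𝔫)

end FieldQuot

/-! ### The algebra generated by a commuting family -/

section EigenChar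

variable {G : Type*} [Group G] {O : Type} [CommRing O] [IsDomain O]
  (M : G →* Matrix (Fin 2) (Fin 2) O)

/-- base change of matrices to the fraction field, as an `O`-algebra map. -/
def toK : Matrix (Fin 2) (Fin 2) O →ₐ[O] Matrix (Fin 2) (Fin 2) (FractionRing O) :=
  (Algebra.ofId O (FractionRing O)).mapMatrix

omit [IsDomain O] in
lemma toK_apply (Y : Matrix (Fin 2) (Fin 2) O) (i j : Fin 2) :
    toK Y i j = algebraMap O (FractionRing O) (Y i j) := rfl

lemma toK_injective : Function.Injective (toK (O := O)) := by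
  intro Y Z h
  ext i j
  have := congrFun (congrFun h i) j
  rw [toK_apply, toK_apply] at this
  exact IsFractionRing.injective O (FractionRing O) this

/-- the `K`-algebra generated by the image. -/
def imgAlgK : Subalgebra (FractionRing O) (Matrix (Fin 2) (Fin 2) (FractionRing O)) :=
  Algebra.adjoin (FractionRing O) (Set.range fun σ => toK (M σ))

lemma imgAlgK_comm (hcomm : ∀ σ τ, Commute (M σ) (M τ)) : IsMulCommutative (imgAlgK M) := by
  refine Algebra.isMulCommutative_adjoin _ ?_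
  rintro _ ⟨σ, rfl⟩ _ ⟨τ, rfl⟩
  show toK (M σ) * toK (M τ) = toK (M τ) * toK (M σ)
  rw [← map_mul toK, ← map_mul toK, (hcomm σ τ).eq]

/-- its integral part: the matrices over `O` lying in `imgAlgK`. -/
def imgAlgO : Subalgebra O (Matrix (Fin 2) (Fin 2) O) :=
  ((imgAlgK M).restrictScalars O).comap toK

lemma mem_imgAlgO {Y : Matrix (Fin 2) (Fin 2) O} : Y ∈ imgAlgO M ↔ toK Y ∈ imgAlgK M := Iff.rfl

lemma M_mem_imgAlgO (σ : G) : M σ ∈ imgAlgO M :=
  (mem_imgAlgO M).mpr (Algebra.subset_adjoin ⟨σ, rfl⟩)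

lemma imgAlgO_saturated {x : O} (hx : x ≠ 0) {Y : Matrix (Fin 2) (Fin 2) O}
    (h : x • Y ∈ imgAlgO M) : Y ∈ imgAlgO M := by
  rw [mem_imgAlgO] at h ⊢
  rw [map_smul] at h
  have hx' : algebraMap O (FractionRing O) x ≠ 0 := by
    rw [Ne, map_eq_zero_iff _ (IsFractionRing.injective O (FractionRing O))]
    exact hx
  have e : toK Y = (algebraMap O (FractionRing O) x)⁻¹ • (x • toK Y) := by
    rw [← algebraMap_smul (FractionRing O) x (toK Y), smul_smul, inv_mul_cancel₀ hx', one_smul]
  rw [e]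
  exact Subalgebra.smul_mem _ h _

variable {M}
variable {L : Type} [Field L] [Algebra (FractionRing O) L] [Algebra O L]
  [IsScalarTower O (FractionRing O) L] (Ψ : imgAlgK M →ₐ[FractionRing O] L)

/-- the induced `O`-algebra map on the integral part. -/
def eigenHom : imgAlgO M →ₐ[O] L where
  toFun y := Ψ ⟨toK y.1, y.2⟩
  map_one' := by
    have : (⟨toK ((1 : imgAlgO M) : Matrix (Fin 2) (Fin 2) O), (1 : imgAlgO M).2⟩ : imgAlgK M)
        = 1 := Subtype.ext (by
          show toK ((1 : imgAlgO M) : Matrix (Fin 2) (Fin 2) O) = ((1 : imgAlgK M) : Matrix _ _ _)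
          rw [OneMemClass.coe_one, map_one, OneMemClass.coe_one])
    rw [this, map_one]
  map_mul' x y := by
    have : (⟨toK ((x * y : imgAlgO M) : Matrix (Fin 2) (Fin 2) O), (x * y).2⟩ : imgAlgK M)
        = ⟨toK x.1, x.2⟩ * ⟨toK y.1, y.2⟩ :=
      Subtype.ext (by
        show toK ((x * y : imgAlgO M) : Matrix (Fin 2) (Fin 2) O) = toK x.1 * toK y.1
        rw [MulMemClass.coe_mul, map_mul])
    rw [this, map_mul]
  map_zero' := by
    have : (⟨toK ((0 : imgAlgO M) : Matrix (Fin 2) (Fin 2) O), (0 : imgAlgO M).2⟩ : imgAlgK M)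
        = 0 := Subtype.ext (by
          show toK ((0 : imgAlgO M) : Matrix (Fin 2) (Fin 2) O) = ((0 : imgAlgK M) : Matrix _ _ _)
          rw [ZeroMemClass.coe_zero, map_zero, ZeroMemClass.coe_zero])
    rw [this, map_zero]
  map_add' x y := by
    have : (⟨toK ((x + y : imgAlgO M) : Matrix (Fin 2) (Fin 2) O), (x + y).2⟩ : imgAlgK M)
        = ⟨toK x.1, x.2⟩ + ⟨toK y.1, y.2⟩ :=
      Subtype.ext (by
        show toK ((x + y : imgAlgO M) : Matrix (Fin 2) (Fin 2) O) = toK x.1 + toK y.1
        rw [AddMemClass.coe_add, map_add])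
    rw [this, map_add]
  commutes' r := by
    have : (⟨toK ((algebraMap O (imgAlgO M) r : imgAlgO M) : Matrix (Fin 2) (Fin 2) O),
        (algebraMap O (imgAlgO M) r).2⟩ : imgAlgK M)
        = algebraMap (FractionRing O) (imgAlgK M) (algebraMap O (FractionRing O) r) := by
      apply Subtype.ext
      show toK ((algebraMap O (imgAlgO M) r : imgAlgO M) : Matrix (Fin 2) (Fin 2) O) =
        ((algebraMap (FractionRing O) (imgAlgK M) (algebraMap O (FractionRing O) r) : imgAlgK M) :
          Matrix _ _ _)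
      rw [Subalgebra.coe_algebraMap, Subalgebra.coe_algebraMap, AlgHom.commutes,
        IsScalarTower.algebraMap_apply O (FractionRing O) (Matrix (Fin 2) (Fin 2) (FractionRing O))]
    show Ψ _ = _
    rw [this, AlgHom.commutes, ← IsScalarTower.algebraMap_apply]

lemma eigenHom_apply (y : imgAlgO M) : eigenHom Ψ y = Ψ ⟨toK y.1, y.2⟩ := rfl

lemma isIntegral_eigenHom (y : imgAlgO M) : IsIntegral O (eigenHom Ψ y) := by
  have h1 : IsIntegral O y :=
    (isIntegral_algHom_iff (imgAlgO M).val Subtype.val_injective).mp (Matrix.isIntegral y.1)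
  exact h1.map (eigenHom Ψ)

end EigenChar

/-! ### The eigen-character of a commuting family over a complete DVR -/

section Main

open IsLocalRing

variable {G : Type*} [Group G] {O : Type} [CommRing O] [IsDomain O] [IsDiscreteValuationRing O]
  [IsAdicComplete (maximalIdeal O) O] [Finite (ResidueField O)] [CharZero O]

theorem exists_eigenChar (M : G →* Matrix (Fin 2) (Fin 2) O)
    (hcomm : ∀ σ τ, Commute (M σ) (M τ)) :
    ∃ (O₂ : Type) (_ : CommRing O₂) (_ : IsDomain O₂) (_ : IsDiscreteValuationRing O₂)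
      (_ : IsAdicComplete (maximalIdeal O₂) O₂) (_ : Finite (ResidueField O₂)) (_ : CharZero O₂)
      (_ : Algebra O O₂) (_ : Module.Finite O O₂) (_ : IsLocalHom (algebraMap O O₂)),
      Function.Injective (algebraMap O O₂) ∧ ∃ c : G →* O₂ˣ,
        (∀ (n : ℕ) (σ : G), EntriesIn (maximalIdeal O ^ n) (M σ - 1) →
          ((c σ : O₂ˣ) : O₂) - 1 ∈ maximalIdeal O₂ ^ n) ∧
        (∀ σ : G, M σ = 1 → c σ = 1) ∧
        (∀ (σ : G) (x y : O), M σ * M σ - x • M σ + y • (1 : Matrix (Fin 2) (Fin 2) O) = 0 →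
          ((c σ : O₂ˣ) : O₂) * (c σ : O₂ˣ) - algebraMap O O₂ x * (c σ : O₂ˣ)
            + algebraMap O O₂ y = 0) := by
  classical
  haveI := imgAlgK_comm M hcomm
  obtain ⟨L, hL1, hL2, hL3, ⟨Ψ⟩⟩ := exists_algHom_field (imgAlgK M)
  letI : Algebra O L :=
    ((algebraMap (FractionRing O) L).comp (algebraMap O (FractionRing O))).toAlgebra
  haveI : IsScalarTower O (FractionRing O) L := IsScalarTower.of_algebraMap_eq fun _ => rfl
  obtain ⟨h1, h2, h3, h4, h5, h6, h7, h8⟩ := Dvr.exists_dvr_structure O (FractionRing O) L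
  -- the element of `imgAlgO` attached to `σ`
  let e : G → imgAlgO M := fun σ => ⟨M σ, M_mem_imgAlgO M σ⟩
  have he_one : e 1 = 1 := Subtype.ext (by
    show M 1 = ((1 : imgAlgO M) : Matrix (Fin 2) (Fin 2) O)
    rw [map_one, OneMemClass.coe_one])
  have he_mul : ∀ σ τ, e (σ * τ) = e σ * e τ := fun σ τ => Subtype.ext (by
    show M (σ * τ) = ((e σ * e τ : imgAlgO M) : Matrix (Fin 2) (Fin 2) O)
    rw [map_mul, MulMemClass.coe_mul])
  -- the monoid hom into `O₂`
  let c₀ : G →* Dvr.OL O L :=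
    { toFun := fun σ => ⟨eigenHom Ψ (e σ), isIntegral_eigenHom Ψ _⟩
      map_one' := Subtype.ext (by
        show eigenHom Ψ (e 1) = ((1 : Dvr.OL O L) : L)
        rw [he_one, map_one, OneMemClass.coe_one])
      map_mul' := fun σ τ => Subtype.ext (by
        show eigenHom Ψ (e (σ * τ)) = eigenHom Ψ (e σ) * eigenHom Ψ (e τ)
        rw [he_mul, map_mul]) }
  have hc₀ : ∀ σ, ((c₀ σ : Dvr.OL O L) : L) = eigenHom Ψ (e σ) := fun _ => rfl
  refine ⟨Dvr.OL O L, inferInstance, h1, h2, h3, h4, h5, inferInstance, h6, h7, h8,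
    c₀.toHomUnits, ?_, ?_, ?_⟩
  · -- continuity
    intro n σ hσ
    obtain ⟨ϖ, hϖ⟩ := IsDiscreteValuationRing.exists_irreducible O
    have h𝔪 : maximalIdeal O ^ n = Ideal.span {ϖ ^ n} := by
      rw [hϖ.maximalIdeal_eq, Ideal.span_singleton_pow]
    have hex : ∀ i j, ∃ y : O, y * ϖ ^ n = (M σ - 1) i j := fun i j =>
      Ideal.mem_span_singleton'.mp (h𝔪 ▸ hσ i j)
    choose Y hY using hex
    have hMY : M σ - 1 = (ϖ ^ n) • (Matrix.of Y : Matrix (Fin 2) (Fin 2) O) := by
      ext i j
      rw [Matrix.smul_apply, Matrix.of_apply, smul_eq_mul, mul_comm, hY]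
    have hϖn : ϖ ^ n ≠ 0 := pow_ne_zero _ hϖ.ne_zero
    have hYmem : (Matrix.of Y : Matrix (Fin 2) (Fin 2) O) ∈ imgAlgO M := by
      refine imgAlgO_saturated M hϖn ?_
      rw [← hMY]
      exact Subalgebra.sub_mem _ (M_mem_imgAlgO M σ) (Subalgebra.one_mem _)
    have hrel : e σ - 1 = (ϖ ^ n) • (⟨Matrix.of Y, hYmem⟩ : imgAlgO M) := Subtype.ext (by
      show ((e σ - 1 : imgAlgO M) : Matrix (Fin 2) (Fin 2) O) = (ϖ ^ n) • Matrix.of Y
      rw [AddSubgroupClass.coe_sub, OneMemClass.coe_one]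
      exact hMY)
    have hrelL : eigenHom Ψ (e σ) - 1 =
        algebraMap O L (ϖ ^ n) * eigenHom Ψ ⟨Matrix.of Y, hYmem⟩ := by
      rw [← map_one (eigenHom Ψ), ← map_sub, hrel, map_smul, Algebra.smul_def]
    have hrel₂ : ((c₀.toHomUnits σ : (Dvr.OL O L)ˣ) : Dvr.OL O L) - 1 =
        algebraMap O (Dvr.OL O L) (ϖ ^ n) *
          ⟨eigenHom Ψ ⟨Matrix.of Y, hYmem⟩, isIntegral_eigenHom Ψ _⟩ := Subtype.ext (by
      rw [MonoidHom.coe_toHomUnits]
      show ((c₀ σ : Dvr.OL O L) : L) - ((1 : Dvr.OL O L) : L) = _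
      rw [hc₀, OneMemClass.coe_one, hrelL]
      rfl)
    rw [hrel₂, map_pow]
    refine Ideal.mul_mem_right _ _ (Ideal.pow_mem_pow ?_ n)
    rw [mem_maximalIdeal, mem_nonunits_iff]
    intro hu
    exact hϖ.not_isUnit (h7.map_nonunit ϖ hu)
  · -- triviality
    intro σ hσ
    apply Units.ext
    rw [MonoidHom.coe_toHomUnits, Units.val_one]
    apply Subtype.ext
    rw [hc₀, OneMemClass.coe_one]
    have : e σ = 1 := Subtype.ext (by
      show M σ = ((1 : imgAlgO M) : Matrix (Fin 2) (Fin 2) O)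
      rw [hσ, OneMemClass.coe_one])
    rw [this, map_one]
  · -- polynomial relations
    intro σ x y hxy
    have hrel : e σ * e σ - x • e σ + y • (1 : imgAlgO M) = 0 := Subtype.ext (by
      show ((e σ * e σ - x • e σ + y • (1 : imgAlgO M) : imgAlgO M) :
        Matrix (Fin 2) (Fin 2) O) = ((0 : imgAlgO M) : Matrix (Fin 2) (Fin 2) O)
      rw [AddMemClass.coe_add, AddSubgroupClass.coe_sub, MulMemClass.coe_mul,
        ZeroMemClass.coe_zero, Subalgebra.coe_smul, Subalgebra.coe_smul, OneMemClass.coe_one]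
      exact hxy)
    have hrelL : eigenHom Ψ (e σ) * eigenHom Ψ (e σ) - algebraMap O L x * eigenHom Ψ (e σ)
        + algebraMap O L y = 0 := by
      have := congrArg (eigenHom Ψ) hrel
      rw [map_add, map_sub, map_mul, map_smul, map_smul, map_one, map_zero, Algebra.smul_def,
        Algebra.smul_def, mul_one] at this
      exact this
    apply Subtype.ext
    rw [MonoidHom.coe_toHomUnits]
    show ((c₀ σ : Dvr.OL O L) : L) * ((c₀ σ : Dvr.OL O L) : L)
      - ((algebraMap O (Dvr.OL O L) x : Dvr.OL O L) : L) * ((c₀ σ : Dvr.OL O L) : L)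
      + ((algebraMap O (Dvr.OL O L) y : Dvr.OL O L) : L) = ((0 : Dvr.OL O L) : L)
    rw [hc₀, ZeroMemClass.coe_zero]
    exact hrelL

end Main

end Fermat.Agent.S29lib.S30
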