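/-
S29lib / S30 (helper4), brick E part 4 (assembly): **the adic block X**.
From an adic piece (2×2 matrices over a complete DVR `O`, adically continuous, unramified outside
`Np`, every Frobenius killed by `X² - a_ℓ X + ℓ`) we produce a `GaloisRepAdic` over a finite DVR
extension `O₂` of `O` with EXACT Frobenius characteristic polynomials.
* good case (every Frobenius has trace `a_ℓ` and determinant `ℓ`): `O₂ = O`, `ρ = toLin' ∘ M`;
* bad case: the image is commutative (`commute_of_bad`), it has an eigen-character `c` over a finite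
  extension `O₂` (`exists_eigenChar`), and `ρ = c ⊕ χ c⁻¹`.
-/
import Mathlib
import Fermat.Agent.S29lib.S30.AdicXComm
import Fermat.Agent.S29lib.S30.AdicXEigen

set_option autoImplicit false
set_option linter.unusedSectionVars false
set_option linter.style.haveILetI false

noncomputable section

namespace Fermat.Agent.S29lib.S30

open Fermat.Agent.S29lib.X Fermat.Agent.ExtVan.InertiaLift Polynomial Matrix IsLocalRing

/-! ### From an adic piece to a `GaloisRepAdic` -/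

section ToRep

variable {N p : ℕ} {A : Type} [CommRing A] [IsLocalRing A] {a : Nat.Primes → A}

/-- the representation on `A²` attached to an adic piece. -/
def AdicPiece.toRep (P : AdicPiece N p A a) : GaloisRepAdic A where
  V := Fin 2 → A
  finrank_eq := Module.finrank_fin_fun A
  ρ := ((Matrix.toLinAlgEquiv' : Matrix (Fin 2) (Fin 2) A ≃ₐ[A] _) :
    Matrix (Fin 2) (Fin 2) A →* Module.End A (Fin 2 → A)).comp P.M
  isAdicContinuous := by
    intro n
    obtain ⟨L, hL, h⟩ := P.continuous n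
    refine ⟨L, hL, fun σ hσ v => ?_⟩
    have hE := h σ hσ
    refine Dvr.mem_smul_top_of_repr_mem (Pi.basisFun A (Fin 2)) _ fun i => ?_
    rw [Pi.basisFun_repr]
    show (Matrix.toLin' (P.M σ) v - v) i ∈ maximalIdeal A ^ n
    have e : Matrix.toLin' (P.M σ) v - v = Matrix.toLin' (P.M σ - 1) v := by
      rw [map_sub, LinearMap.sub_apply, Matrix.toLin'_one, LinearMap.id_apply]
    rw [e, Matrix.toLin'_apply, Matrix.mulVec, dotProduct]
    exact Ideal.sum_mem _ fun j _ => Ideal.mul_mem_right _ _ (hE i j)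

lemma AdicPiece.toRep_ρ (P : AdicPiece N p A a) (σ : GQ) :
    P.toRep.ρ σ = Matrix.toLin' (P.M σ) := rfl

lemma AdicPiece.toRep_unram (P : AdicPiece N p A a) {ℓ : ℕ} (hℓ : ℓ.Prime) (h : ¬ ℓ ∣ N * p) :
    P.toRep.IsUnramifiedAt ℓ := by
  intro B hB σ hσ
  rw [P.toRep_ρ, P.unram ℓ hℓ h B hB σ hσ, Matrix.toLin'_one]
  rfl

lemma charpoly_of_trace_det' {R : Type*} [CommRing R] [Nontrivial R]
    (M : Matrix (Fin 2) (Fin 2) R) {t d : R} (ht : M.trace = t) (hd : M.det = d) :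
    M.charpoly = X ^ 2 - C t * X + C d := by
  rw [Matrix.charpoly_fin_two, ht, hd]

lemma AdicPiece.toRep_charpoly (P : AdicPiece N p A a) {σ : GQ} {t d : A}
    (ht : (P.M σ).trace = t) (hd : (P.M σ).det = d) :
    LinearMap.charpoly (P.toRep.ρ σ) = X ^ 2 - C t * X + C d := by
  exact (Matrix.charpoly_toLin' (P.M σ)).trans (charpoly_of_trace_det' _ ht hd)

/-- every Frobenius has the right trace and determinant. -/
def AdicPiece.IsGood (P : AdicPiece N p A a) : Prop :=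
  ∀ (ℓ : ℕ) (hℓ : ℓ.Prime), ¬ ℓ ∣ N * p →
    ∀ B : ValuationSubring Qb, B.LiesOverPrime ℓ → ∀ σ : GQ, B.IsFrobeniusAt σ ℓ →
      (P.M σ).trace = a ⟨ℓ, hℓ⟩ ∧ (P.M σ).det = (ℓ : A)

/-- the conclusion of block X for a representation `ρ` over `A` and traces `a`. -/
def IsAttachedAdic (N p : ℕ) {A : Type} [CommRing A] [IsLocalRing A] (a : Nat.Primes → A)
    (ρ : GaloisRepAdic A) : Prop :=
  (∀ (ℓ : ℕ) (hℓ : ℓ.Prime), ¬ ℓ ∣ N * p →
    ∀ B : ValuationSubring Qb, B.LiesOverPrime ℓ → ∀ σ : GQ, B.IsFrobeniusAt σ ℓ →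
      LinearMap.charpoly (ρ.ρ σ) = X ^ 2 - C (a ⟨ℓ, hℓ⟩) * X + C (ℓ : A)) ∧
  (∀ ℓ : ℕ, ℓ.Prime → ¬ ℓ ∣ N * p → ρ.IsUnramifiedAt ℓ)

theorem AdicPiece.isAttachedAdic_of_isGood (P : AdicPiece N p A a) (h : P.IsGood) :
    IsAttachedAdic N p a P.toRep :=
  ⟨fun ℓ hℓ hnd B hB σ hσ =>
    P.toRep_charpoly (h ℓ hℓ hnd B hB σ hσ).1 (h ℓ hℓ hnd B hB σ hσ).2,
   fun _ hℓ hnd => P.toRep_unram hℓ hnd⟩

end ToRep

/-! ### Diagonal pieces -/

section Diag

/-- the diagonal matrices attached to two characters. -/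
def diagHom {G R : Type*} [Monoid G] [CommRing R] (d₁ d₂ : G →* R) :
    G →* Matrix (Fin 2) (Fin 2) R where
  toFun σ := Matrix.diagonal ![d₁ σ, d₂ σ]
  map_one' := by
    ext i j
    fin_cases i <;> fin_cases j <;> simp
  map_mul' σ τ := by
    rw [Matrix.diagonal_mul_diagonal]
    congr 1
    ext i
    fin_cases i <;> simp

lemma diagHom_apply {G R : Type*} [Monoid G] [CommRing R] (d₁ d₂ : G →* R) (σ : G) :
    diagHom d₁ d₂ σ = Matrix.diagonal ![d₁ σ, d₂ σ] := rfl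

end Diag

/-! ### The bad case -/

section Bad

variable {N p : ℕ} [hpf : Fact p.Prime] {O : Type} [CommRing O] [IsDomain O]
  [IsDiscreteValuationRing O] [IsAdicComplete (maximalIdeal O) O] [Finite (ResidueField O)]
  [CharZero O] {a : Nat.Primes → O}

/-- the diagonal piece `c ⊕ χ c⁻¹` over an extension `O₂`. -/
theorem exists_good_piece_of_commute (hpO : (p : O) ∈ maximalIdeal O) (P : AdicPiece N p O a)
    (hcomm : ∀ σ τ : GQ, Commute (P.M σ) (P.M τ)) :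
    ∃ (O₂ : Type) (_ : CommRing O₂) (_ : IsDomain O₂) (_ : IsDiscreteValuationRing O₂)
      (_ : IsAdicComplete (maximalIdeal O₂) O₂) (_ : Finite (ResidueField O₂)) (_ : CharZero O₂)
      (_ : Algebra O O₂) (_ : Module.Finite O O₂) (_ : IsLocalHom (algebraMap O O₂)),
      Function.Injective (algebraMap O O₂) ∧
      ∃ P₂ : AdicPiece N p O₂ (fun ℓ => algebraMap O O₂ (a ℓ)), P₂.IsGood := by
  classical
  have hp : p.Prime := hpf.out
  obtain ⟨O₂, i1, i2, i3, i4, i5, i6, i7, i8, i9, hinj, c, hcont, htriv, hrel⟩ :=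
    exists_eigenChar P.M hcomm
  refine ⟨O₂, i1, i2, i3, i4, i5, i6, i7, i8, i9, hinj, ?_⟩
  -- `p` lies in the maximal ideal of `O₂`
  have hmap : ∀ x : O, x ∈ maximalIdeal O → algebraMap O O₂ x ∈ maximalIdeal O₂ := by
    intro x hx
    rw [mem_maximalIdeal, mem_nonunits_iff] at hx ⊢
    exact fun hu => hx (i9.map_nonunit x hu)
  have hp₂ : (p : O₂) ∈ maximalIdeal O₂ := by
    have := hmap (p : O) hpO
    rwa [map_natCast] at this
  set χ₂ : GQ →* O₂ˣ := chiAdic p (maximalIdeal O₂) hp₂ with hχ₂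
  set d₁ : GQ →* O₂ := (Units.coeHom O₂).comp c with hd₁
  set d₂ : GQ →* O₂ := (Units.coeHom O₂).comp (χ₂ / c) with hd₂
  have hd₁a : ∀ σ, d₁ σ = ((c σ : O₂ˣ) : O₂) := fun _ => rfl
  have hd₂a : ∀ σ, d₂ σ = ((χ₂ σ : O₂ˣ) : O₂) * (((c σ)⁻¹ : O₂ˣ) : O₂) := fun σ => by
    rw [hd₂, MonoidHom.comp_apply, MonoidHom.div_apply, div_eq_mul_inv, Units.coeHom_apply,
      Units.val_mul]
  have huw : ∀ σ, ((c σ : O₂ˣ) : O₂) * (((c σ)⁻¹ : O₂ˣ) : O₂) = 1 := fun σ => Units.mul_inv _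
  -- the quadratic relation at Frobenius elements
  have hquad : ∀ (ℓ : ℕ) (hℓ : ℓ.Prime), ¬ ℓ ∣ N * p →
      ∀ B : ValuationSubring Qb, B.LiesOverPrime ℓ → ∀ σ : GQ, B.IsFrobeniusAt σ ℓ →
        ((c σ : O₂ˣ) : O₂) * (c σ : O₂ˣ) - algebraMap O O₂ (a ⟨ℓ, hℓ⟩) * (c σ : O₂ˣ)
          + (ℓ : O₂) = 0 ∧ ((χ₂ σ : O₂ˣ) : O₂) = (ℓ : O₂) := by
    intro ℓ hℓ h B hB σ hσ
    refine ⟨?_, chiAdic_of_isFrobeniusAt _ hp₂ hℓ (ne_of_not_dvd' h) hB hσ⟩
    have := hrel σ (a ⟨ℓ, hℓ⟩) (ℓ : O) (P.frob ℓ hℓ h B hB σ hσ)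
    rwa [map_natCast] at this
  refine ⟨{ M := diagHom d₁ d₂, continuous := ?_, unram := ?_, frob := ?_ }, ?_⟩
  · -- continuity
    intro n
    obtain ⟨L₀, hfd, hL₀⟩ := P.continuous n
    haveI := hfd
    refine ⟨L₀ ⊔ cycloFieldPow p n, IntermediateField.finiteDimensional_sup _ _,
      fun σ hσ => ?_⟩
    have h1 : ((c σ : O₂ˣ) : O₂) - 1 ∈ maximalIdeal O₂ ^ n :=
      hcont n σ fun i j => hL₀ σ (fun x hx => hσ x (le_sup_left (a := L₀) hx)) i j
    have h2 : ((χ₂ σ : O₂ˣ) : O₂) - 1 ∈ maximalIdeal O₂ ^ n :=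
      chiAdic_sub_one_mem _ hp₂ fun x hx => hσ x (le_sup_right (b := cycloFieldPow p n) hx)
    have h3 : (((χ₂ / c) σ : O₂ˣ) : O₂) - 1 ∈ maximalIdeal O₂ ^ n := by
      rw [MonoidHom.div_apply]
      exact (congSub (maximalIdeal O₂ ^ n)).div_mem (mem_congSub.mpr h2) (mem_congSub.mpr h1)
    intro i j
    rw [diagHom_apply]
    fin_cases i <;> fin_cases j
    · simpa [hd₁a] using h1
    · simp
    · simp
    · simpa [hd₂] using h3
  · -- unramifiedness
    intro ℓ hℓ h B hB σ hσ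
    have h1 : c σ = 1 := htriv σ (P.unram ℓ hℓ h B hB σ hσ)
    have h2 : χ₂ σ = 1 := chiAdic_of_mem_inertia _ hp₂ hℓ (ne_of_not_dvd' h) hB hσ
    rw [diagHom_apply, hd₁a, hd₂a, h1, h2]
    ext i j
    fin_cases i <;> fin_cases j <;> simp
  · -- the quadratic relation
    intro ℓ hℓ h B hB σ hσ
    obtain ⟨hq, hχ⟩ := hquad ℓ hℓ h B hB σ hσ
    have hu := huw σ
    rw [diagHom_apply, hd₁a, hd₂a, hχ]
    set u : O₂ := ((c σ : O₂ˣ) : O₂)
    set w : O₂ := (((c σ)⁻¹ : O₂ˣ) : O₂)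
    set a' : O₂ := algebraMap O O₂ (a ⟨ℓ, hℓ⟩)
    ext i j
    fin_cases i <;> fin_cases j
    · simp
      linear_combination hq
    · simp
    · simp
    · simp
      linear_combination ((ℓ : O₂) * w ^ 2) * hq - ((ℓ : O₂) * (1 + u * w) - a' * (ℓ : O₂) * w) * hu
  · -- all Frobenius elements are good
    intro ℓ hℓ h B hB σ hσ
    obtain ⟨hq, hχ⟩ := hquad ℓ hℓ h B hB σ hσ
    have hu := huw σ
    show (diagHom d₁ d₂ σ).trace = algebraMap O O₂ (a ⟨ℓ, hℓ⟩) ∧ (diagHom d₁ d₂ σ).det = (ℓ : O₂)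
    rw [diagHom_apply, hd₁a, hd₂a, hχ, Matrix.trace_fin_two, Matrix.det_fin_two]
    set u : O₂ := ((c σ : O₂ˣ) : O₂)
    set w : O₂ := (((c σ)⁻¹ : O₂ˣ) : O₂)
    set a' : O₂ := algebraMap O O₂ (a ⟨ℓ, hℓ⟩)
    constructor
    · simp
      linear_combination w * hq - (u - a') * hu
    · simp
      linear_combination (ℓ : O₂) * hu

end Bad

/-! ### The adic block X -/

section Final

variable {N p : ℕ} [hpf : Fact p.Prime]

/-- **Adic block X** (abstract form). -/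
theorem exists_isAttachedAdic_of_adicPiece (hN : N ≠ 0) (O : Type) [CommRing O] [IsDomain O]
    [IsDiscreteValuationRing O] [IsAdicComplete (maximalIdeal O) O] [Finite (ResidueField O)]
    [CharZero O] (hpO : (p : O) ∈ maximalIdeal O) (a : Nat.Primes → O) (P : AdicPiece N p O a) :
    ∃ (O₂ : Type) (_ : CommRing O₂) (_ : IsDomain O₂) (_ : IsDiscreteValuationRing O₂)
      (_ : IsAdicComplete (maximalIdeal O₂) O₂) (_ : Finite (ResidueField O₂)) (_ : CharZero O₂)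
      (_ : Algebra O O₂) (_ : Module.Finite O O₂) (_ : IsLocalHom (algebraMap O O₂)),
      Function.Injective (algebraMap O O₂) ∧
      ∃ ρ : GaloisRepAdic O₂, IsAttachedAdic N p (fun ℓ => algebraMap O O₂ (a ℓ)) ρ := by
  classical
  by_cases hgood : P.IsGood
  · refine ⟨O, inferInstance, inferInstance, inferInstance, inferInstance, inferInstance,
      inferInstance, Algebra.id O, inferInstance, ?_, Function.injective_id, P.toRep, ?_⟩
    · exact isLocalHom_id O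
    · exact P.isAttachedAdic_of_isGood hgood
  · unfold AdicPiece.IsGood at hgood
    push Not at hgood
    obtain ⟨ℓ₀, hℓ₀, h₀, A₀, hA₀, σ₀, hσ₀, hbad⟩ := hgood
    have hcomm := commute_of_bad hpO P hN hℓ₀ h₀ hA₀ hσ₀
      (fun hh => absurd hh.2 (hbad hh.1))
    obtain ⟨O₂, i1, i2, i3, i4, i5, i6, i7, i8, i9, hinj, P₂, hP₂⟩ :=
      exists_good_piece_of_commute hpO P hcomm
    exact ⟨O₂, i1, i2, i3, i4, i5, i6, i7, i8, i9, hinj, P₂.toRep,
      P₂.isAttachedAdic_of_isGood hP₂⟩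

/-- **Adic block X** (explicit form, the shape of the conclusion of S30). -/
theorem exists_galoisRepAdic_of_adicPiece (hN : N ≠ 0) (O : Type) [CommRing O] [IsDomain O]
    [IsDiscreteValuationRing O] [IsAdicComplete (maximalIdeal O) O] [Finite (ResidueField O)]
    [CharZero O] (hpO : (p : O) ∈ maximalIdeal O) (a : Nat.Primes → O) (P : AdicPiece N p O a) :
    ∃ (O₂ : Type) (_ : CommRing O₂) (_ : IsDomain O₂) (_ : IsDiscreteValuationRing O₂)
      (_ : IsAdicComplete (maximalIdeal O₂) O₂) (_ : Finite (ResidueField O₂)) (_ : CharZero O₂)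
      (_ : Algebra O O₂) (_ : Module.Finite O O₂) (_ : IsLocalHom (algebraMap O O₂)),
      Function.Injective (algebraMap O O₂) ∧
      ∃ ρ : GaloisRepAdic O₂,
        (∀ (ℓ : ℕ) (hℓ : ℓ.Prime), ¬ ℓ ∣ N * p →
          ∀ B : ValuationSubring (AlgebraicClosure ℚ), B.LiesOverPrime ℓ →
            ∀ σ : AlgebraicClosure ℚ ≃ₐ[ℚ] AlgebraicClosure ℚ, B.IsFrobeniusAt σ ℓ →
              LinearMap.charpoly (ρ.ρ σ) =
                X ^ 2 - C (algebraMap O O₂ (a ⟨ℓ, hℓ⟩)) * X + C ((ℓ : O₂))) ∧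
        (∀ ℓ : ℕ, ℓ.Prime → ¬ ℓ ∣ N * p → ρ.IsUnramifiedAt ℓ) := by
  obtain ⟨O₂, i1, i2, i3, i4, i5, i6, i7, i8, i9, hinj, ρ, hρ⟩ :=
    exists_isAttachedAdic_of_adicPiece hN O hpO a P
  exact ⟨O₂, i1, i2, i3, i4, i5, i6, i7, i8, i9, hinj, ρ, hρ.1, hρ.2⟩

end Final

/-! ### Adic pieces from endomorphism-valued representations -/

section OfEnd

variable {N p : ℕ} {O : Type} [CommRing O] [IsLocalRing O] {a : Nat.Primes → O}
  {V : Type} [AddCommGroup V] [Module O V]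

/-- an adic piece from a representation on a module with a basis. -/
def AdicPiece.ofEnd (b : Module.Basis (Fin 2) O V) (ρ : GQ →* Module.End O V)
    (hcont : GaloisActionIsAdicContinuous O ρ)
    (hunram : ∀ ℓ : ℕ, ℓ.Prime → ¬ ℓ ∣ N * p →
      ∀ B : ValuationSubring Qb, B.LiesOverPrime ℓ → ∀ σ ∈ B.inertiaSubgroupIn ℚ, ρ σ = 1)
    (hfrob : ∀ (ℓ : ℕ) (hℓ : ℓ.Prime), ¬ ℓ ∣ N * p →
      ∀ B : ValuationSubring Qb, B.LiesOverPrime ℓ → ∀ σ : GQ, B.IsFrobeniusAt σ ℓ →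
        ρ σ * ρ σ - a ⟨ℓ, hℓ⟩ • ρ σ + (ℓ : O) • (1 : Module.End O V) = 0) :
    AdicPiece N p O a where
  M := ((LinearMap.toMatrixAlgEquiv b : Module.End O V ≃ₐ[O] Matrix (Fin 2) (Fin 2) O) :
    Module.End O V →* Matrix (Fin 2) (Fin 2) O).comp ρ
  continuous := by
    intro n
    obtain ⟨L, hL, h⟩ := hcont n
    refine ⟨L, hL, fun σ hσ i j => ?_⟩
    show (LinearMap.toMatrixAlgEquiv b (ρ σ) - 1) i j ∈ maximalIdeal O ^ n
    have e : LinearMap.toMatrixAlgEquiv b (ρ σ) - 1 = LinearMap.toMatrixAlgEquiv b (ρ σ - 1) := by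
      rw [map_sub, map_one]
    rw [e, LinearMap.toMatrixAlgEquiv_apply]
    exact Dvr.repr_mem_of_mem_smul_top b _ (h σ hσ (b j)) i
  unram := by
    intro ℓ hℓ h B hB σ hσ
    show LinearMap.toMatrixAlgEquiv b (ρ σ) = 1
    rw [hunram ℓ hℓ h B hB σ hσ, map_one]
  frob := by
    intro ℓ hℓ h B hB σ hσ
    show LinearMap.toMatrixAlgEquiv b (ρ σ) * LinearMap.toMatrixAlgEquiv b (ρ σ)
      - a ⟨ℓ, hℓ⟩ • LinearMap.toMatrixAlgEquiv b (ρ σ) + (ℓ : O) • 1 = 0
    have := congrArg (LinearMap.toMatrixAlgEquiv b) (hfrob ℓ hℓ h B hB σ hσ)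
    rw [map_add, map_sub, map_mul, map_smul, map_smul, map_one, map_zero] at this
    exact this

end OfEnd

section FinalEnd

variable {N p : ℕ} [hpf : Fact p.Prime]

/-- **Adic block X**, for a representation on a free module of rank 2 (the output shape of the
adic lattice brick). -/
theorem exists_galoisRepAdic_of_end (hN : N ≠ 0) (O : Type) [CommRing O] [IsDomain O]
    [IsDiscreteValuationRing O] [IsAdicComplete (maximalIdeal O) O] [Finite (ResidueField O)]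
    [CharZero O] (hpO : (p : O) ∈ maximalIdeal O) (a : Nat.Primes → O)
    {V : Type} [AddCommGroup V] [Module O V] [Module.Free O V] [Module.Finite O V]
    (hrank : Module.finrank O V = 2) (ρ₀ : GQ →* Module.End O V)
    (hcont : GaloisActionIsAdicContinuous O ρ₀)
    (hunram : ∀ ℓ : ℕ, ℓ.Prime → ¬ ℓ ∣ N * p →
      ∀ B : ValuationSubring Qb, B.LiesOverPrime ℓ → ∀ σ ∈ B.inertiaSubgroupIn ℚ, ρ₀ σ = 1)
    (hfrob : ∀ (ℓ : ℕ) (hℓ : ℓ.Prime), ¬ ℓ ∣ N * p →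
      ∀ B : ValuationSubring Qb, B.LiesOverPrime ℓ → ∀ σ : GQ, B.IsFrobeniusAt σ ℓ →
        ρ₀ σ * ρ₀ σ - a ⟨ℓ, hℓ⟩ • ρ₀ σ + (ℓ : O) • (1 : Module.End O V) = 0) :
    ∃ (O₂ : Type) (_ : CommRing O₂) (_ : IsDomain O₂) (_ : IsDiscreteValuationRing O₂)
      (_ : IsAdicComplete (maximalIdeal O₂) O₂) (_ : Finite (ResidueField O₂)) (_ : CharZero O₂)
      (_ : Algebra O O₂) (_ : Module.Finite O O₂) (_ : IsLocalHom (algebraMap O O₂)),
      Function.Injective (algebraMap O O₂) ∧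
      ∃ ρ : GaloisRepAdic O₂,
        (∀ (ℓ : ℕ) (hℓ : ℓ.Prime), ¬ ℓ ∣ N * p →
          ∀ B : ValuationSubring (AlgebraicClosure ℚ), B.LiesOverPrime ℓ →
            ∀ σ : AlgebraicClosure ℚ ≃ₐ[ℚ] AlgebraicClosure ℚ, B.IsFrobeniusAt σ ℓ →
              LinearMap.charpoly (ρ.ρ σ) =
                X ^ 2 - C (algebraMap O O₂ (a ⟨ℓ, hℓ⟩)) * X + C ((ℓ : O₂))) ∧
        (∀ ℓ : ℕ, ℓ.Prime → ¬ ℓ ∣ N * p → ρ.IsUnramifiedAt ℓ) :=
  exists_galoisRepAdic_of_adicPiece hN O hpO a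
    (AdicPiece.ofEnd (Module.finBasisOfFinrankEq O V hrank) ρ₀ hcont hunram hfrob)

end FinalEnd

end Fermat.Agent.S29lib.S30
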