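/-
S29lib / S30 (helper9), brick F: the assembly.  From
* `Z.CompStatement` (blocks K/H/D/P: comparison data + eigen input),
* block GH (`GH.localData_of_comparisonData`),
* bricks A + B (`exists_eigen_data`, helper5), brick C in matrix form (`exists_adic_matrix`,
  helper8), brick E (the adic block X, helper4; enters through the statement `BrickE`),
the frozen statement S30.
-/
import Fermat.Agent.S29lib.Z.Assemble
import Fermat.Agent.S29lib.S30.EigenData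
import Fermat.Agent.S29lib.S30.AdicMatrix
import Fermat.Agent.S29lib.S30.AdicXDef
import Fermat.Prelude.Def_CuspForm_HeckeGaloisRepDatum

set_option autoImplicit false
set_option linter.style.haveILetI false
set_option linter.unusedSectionVars false

noncomputable section

namespace Fermat.Agent.S29lib.S30

open Polynomial ModularCurve Fermat.Agent.S29lib.X Fermat.Agent.ExtVan.InertiaLift
  Fermat.Agent.S29lib.Dvr

/-! ### the assembly -/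

/-- brick E (the adic block X, helper4) as a statement. -/
def BrickE : Prop :=
  ∀ {N p : ℕ} [Fact p.Prime], N ≠ 0 → ∀ (O : Type) [CommRing O] [IsDomain O]
    [IsDiscreteValuationRing O] [IsAdicComplete (IsLocalRing.maximalIdeal O) O]
    [Finite (IsLocalRing.ResidueField O)] [CharZero O],
    (p : O) ∈ IsLocalRing.maximalIdeal O → ∀ (a : Nat.Primes → O), AdicPiece N p O a →
    ∃ (O₂ : Type) (_ : CommRing O₂) (_ : IsDomain O₂) (_ : IsDiscreteValuationRing O₂)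
      (_ : IsAdicComplete (IsLocalRing.maximalIdeal O₂) O₂)
      (_ : Finite (IsLocalRing.ResidueField O₂)) (_ : CharZero O₂) (_ : Algebra O O₂)
      (_ : Module.Finite O O₂) (_ : IsLocalHom (algebraMap O O₂)),
      Function.Injective (algebraMap O O₂) ∧ ∃ ρ : GaloisRepAdic O₂,
        (∀ (ℓ : ℕ) (hℓ : ℓ.Prime), ¬ ℓ ∣ N * p → ∀ A : ValuationSubring Qb, A.LiesOverPrime ℓ →
          ∀ σ : GQ, A.IsFrobeniusAt σ ℓ →
            LinearMap.charpoly (ρ.ρ σ) =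
              X ^ 2 - C (algebraMap O O₂ (a ⟨ℓ, hℓ⟩)) * X + C (ℓ : O₂)) ∧
        (∀ ℓ : ℕ, ℓ.Prime → ¬ ℓ ∣ N * p → ρ.IsUnramifiedAt ℓ)

/-- the frozen statement S30. -/
def S30Statement : Prop :=
    ∀ (p : ℕ) [Fact p.Prime] (N : ℕ) [NeZero N] (S : Finset ℕ)
      (_hpS : p ∈ S) (_hNS : ∀ q : ℕ, q.Prime → q ∣ N → q ∈ S)
      (𝒪' : Type) [CommRing 𝒪'] [IsDomain 𝒪'] [IsDiscreteValuationRing 𝒪']
      [IsAdicComplete (IsLocalRing.maximalIdeal 𝒪') 𝒪'] [Finite (IsLocalRing.ResidueField 𝒪')]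
      [CharZero 𝒪'] (_hp𝒪' : (p : 𝒪') ∈ IsLocalRing.maximalIdeal 𝒪')
      (χ : CuspForm.heckeAlgebra N 2 (↑S : Set ℕ) →+* 𝒪'),
      ∃ (𝒪'' : Type) (_ : CommRing 𝒪'') (_ : IsDomain 𝒪'') (_ : IsDiscreteValuationRing 𝒪'')
        (_ : IsAdicComplete (IsLocalRing.maximalIdeal 𝒪'') 𝒪'')
        (_ : Finite (IsLocalRing.ResidueField 𝒪'')) (_ : CharZero 𝒪'')
        (_ : Algebra 𝒪' 𝒪'') (_ : Module.Finite 𝒪' 𝒪'') (_ : IsLocalHom (algebraMap 𝒪' 𝒪'')),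
      Function.Injective (algebraMap 𝒪' 𝒪'') ∧
      ∃ ρ : GaloisRepAdic 𝒪'',
        (∀ (ℓ : ℕ) (hℓ : ℓ.Prime) (hℓN : ¬ ℓ ∣ N) (hℓS : ℓ ∉ (↑S : Set ℕ)),
          ∀ A : ValuationSubring (AlgebraicClosure ℚ), A.LiesOverPrime ℓ →
            ∀ σ : AlgebraicClosure ℚ ≃ₐ[ℚ] AlgebraicClosure ℚ, A.IsFrobeniusAt σ ℓ →
              LinearMap.charpoly (ρ.ρ σ) =
                X ^ 2 - C (algebraMap 𝒪' 𝒪'' (χ (CuspForm.heckeAlgebra.T hℓ hℓN hℓS))) * X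
                  + C ((ℓ : 𝒪''))) ∧
        (∀ q : ℕ, q.Prime → ¬ q ∣ N → q ≠ p → ρ.IsUnramifiedAt q)

lemma not_dvd_mul_of_prime {ℓ N p : ℕ} (hℓ : ℓ.Prime) (hp : p.Prime) (hℓN : ¬ ℓ ∣ N)
    (hℓp : ℓ ≠ p) : ¬ ℓ ∣ N * p := by
  intro h
  rcases (Nat.Prime.dvd_mul hℓ).mp h with h | h
  · exact hℓN h
  · exact hℓp ((Nat.prime_dvd_prime_iff_eq hℓ hp).mp h)

/-- **S30 from the blocks.** -/
theorem s30_of_blocks (hC : Z.CompStatement) (hE : BrickE) : S30Statement := by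
  intro p _ N _ S hpS hNS 𝒪' _ _ _ _ _ _ hp𝒪' χ
  classical
  have hp : p.Prime := Fact.out
  -- comparison data, eigen input, local data
  obtain ⟨Cd, hCg⟩ := hC N p hp
  have hL : LocalData N p := GH.localData_of_comparisonData Cd hp.ne_zero
  -- bricks A + B
  obtain ⟨K₁, hfd, a₁, hfinL, ha₁⟩ := exists_eigen_data Cd hCg (↑S : Set ℕ) 𝒪' χ
  haveI := hfd
  -- the DVR `O1`
  obtain ⟨_, _, _, _, _, hfin1, hloc1, hinj1⟩ := exists_dvr_structure 𝒪' (FractionRing 𝒪') K₁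
  have hpO1 : (p : OL 𝒪' K₁) ∈ IsLocalRing.maximalIdeal (OL 𝒪' K₁) := by
    have h1 : (p : OL 𝒪' K₁) = algebraMap 𝒪' (OL 𝒪' K₁) (p : 𝒪') := (map_natCast _ p).symm
    rw [h1]
    exact map_nonunit (algebraMap 𝒪' (OL 𝒪' K₁)) _ hp𝒪'
  -- brick C: the matrices
  obtain ⟨M, hM1, hM2, hM3⟩ := exists_adic_matrix Cd hL (OL 𝒪' K₁) hpO1 a₁
    (algebraMap (OL 𝒪' K₁) K₁) Subtype.val_injective hfinL
  let P : AdicPiece N p (OL 𝒪' K₁) a₁ := ⟨M, hM1, hM2, hM3⟩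
  -- brick E
  obtain ⟨O₂, i1, i2, i3, i4, i5, i6, i7, i8, i9, hinj2, ρ', hchar, hunr⟩ :=
    hE (NeZero.ne N) (OL 𝒪' K₁) hpO1 a₁ P
  -- the tower
  letI : Algebra 𝒪' O₂ := ((algebraMap (OL 𝒪' K₁) O₂).comp (algebraMap 𝒪' (OL 𝒪' K₁))).toAlgebra
  haveI : IsScalarTower 𝒪' (OL 𝒪' K₁) O₂ := IsScalarTower.of_algebraMap_eq fun _ => rfl
  haveI : Module.Finite 𝒪' O₂ := Module.Finite.trans (OL 𝒪' K₁) O₂
  haveI : IsLocalHom (algebraMap 𝒪' O₂) :=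
    RingHom.isLocalHom_comp (algebraMap (OL 𝒪' K₁) O₂) (algebraMap 𝒪' (OL 𝒪' K₁))
  refine ⟨O₂, i1, i2, i3, i4, i5, i6, inferInstance, inferInstance, inferInstance,
    hinj2.comp hinj1, ρ', ?_, ?_⟩
  · intro ℓ hℓ hℓN hℓS A hA σ hσ
    have hℓp : ℓ ≠ p := by
      rintro rfl
      exact hℓS (Finset.mem_coe.mpr hpS)
    rw [hchar ℓ hℓ (not_dvd_mul_of_prime hℓ hp hℓN hℓp) A hA σ hσ, ha₁ ℓ hℓ hℓN hℓS]
    rfl
  · intro q hq hqN hqp
    exact hunr q hq (not_dvd_mul_of_prime hq hp hqN hqp)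

end Fermat.Agent.S29lib.S30
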