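/-
S29lib / S30 (helper5), brick A2: a character `θ : 𝕋 → O₁` of the FULL Hecke algebra
`𝕋 = heckeAlgebra N 2 ∅` with values in a domain of characteristic zero is the eigencharacter of a
normalised eigenform, up to the identification of the two images:
`ker θ = ker (eigenChar hg)`.
-/
import Mathlib
import Fermat.Agent.S29lib.P.Character
import Fermat.Agent.Helper8.DeligneSerre
import Fermat.Agent.ProgramR.ES.Assembly

set_option autoImplicit false
set_option linter.style.haveILetI false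

noncomputable section

namespace Fermat.Agent.S29lib.S30

open CuspForm ModularFormClass CongruenceSubgroup Fermat.Agent.Helper8 Fermat.Agent.S29lib.P

variable {N : ℕ} [NeZero N]

/-- the full Hecke algebra -/
local notation "𝕋" => CuspForm.heckeAlgebra N 2 (∅ : Set ℕ)

/-- strengthened form of `Helper8.exists_normalizedEigenform`: the normalised eigenform is an
eigenvector for the same character. -/
theorem exists_normalizedEigenform_eigen {g : CuspForm (Gamma0 N) 2} (hg : g ≠ 0)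
    (χ : 𝕋 →+* ℂ)
    (hχ : ∀ t : 𝕋, (t : Module.End ℂ (CuspForm (Gamma0 N) 2)) g = χ t • g) :
    ∃ g' : CuspForm (Gamma0 N) 2, g'.IsNormalizedEigenform ∧
      ∀ t : 𝕋, (t : Module.End ℂ (CuspForm (Gamma0 N) 2)) g' = χ t • g' := by
  have hc1 := qCoeff_one_ne_zero hg χ hχ
  set g' : CuspForm (Gamma0 N) 2 := (qCoeff ⇑g 1)⁻¹ • g with hg'
  have hχ' : ∀ t : 𝕋, (t : Module.End ℂ (CuspForm (Gamma0 N) 2)) g' = χ t • g' := by
    intro t
    rw [hg', map_smul, hχ t, smul_comm]
  have hone : qCoeff ⇑g' 1 = 1 := by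
    rw [hg', qCoeff_smul, inv_mul_cancel₀ hc1]
  have hval : ∀ ℓ : ℕ, ℓ.Prime → qCoeff ⇑g' ℓ = eigenvalueFn χ ℓ := by
    intro ℓ hℓ
    have := qCoeff_rel χ hχ' hℓ 1
    rw [mul_one, hone, mul_one, if_neg (by simpa using hℓ.ne_one), mul_zero, add_zero] at this
    exact this
  have heig : FormalHecke.IsEigensystem (eLevel N) (fun n => qCoeff ⇑g' n) := by
    refine ⟨hone, fun ℓ hℓ n => ?_⟩
    show qCoeff ⇑g' (ℓ * n) + eLevel N ℓ * (if ℓ ∣ n then qCoeff ⇑g' (n / ℓ) else 0) =
      qCoeff ⇑g' ℓ * qCoeff ⇑g' n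
    rw [hval ℓ hℓ]
    exact qCoeff_rel χ hχ' hℓ n
  obtain ⟨-, hmul, hpow⟩ := isRecursive_of_isEigensystem heig
  refine ⟨g', ⟨hone, hmul, ?_, ?_⟩, hχ'⟩
  · intro p r hp hpN
    have := hpow p r hp
    simp only [eLevel, if_neg hpN] at this
    exact this
  · intro p r hp hpN
    have := hpow p r hp
    simp only [eLevel, if_pos hpN, zero_mul, sub_zero] at this
    exact this

/-- **Every characteristic-zero character of the full Hecke algebra comes from a normalised
eigenform.** -/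
theorem exists_eigenform_ker_eq {O₁ : Type} [CommRing O₁] [IsDomain O₁] [CharZero O₁]
    (θ : 𝕋 →+* O₁) :
    ∃ (g : CuspForm (Gamma0 N) 2) (hg : g.IsNormalizedEigenform),
      RingHom.ker (eigenChar hg) = RingHom.ker θ := by
  classical
  haveI : FiniteDimensional ℂ (CuspForm (Gamma0 N) 2) :=
    Fermat.Agent.ProgramR.ES.finiteDimensional_cuspForm N
  haveI : Module.Finite ℤ 𝕋 := Fermat.Agent.S22.result N 2 ∅
  set Q : Ideal 𝕋 := RingHom.ker θ with hQ
  haveI : Q.IsPrime := RingHom.ker_isPrime θ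
  let ρ : 𝕋 →+* Module.End ℂ (CuspForm (Gamma0 N) 2) :=
    (Subalgebra.val (CuspForm.heckeAlgebra N 2 (∅ : Set ℕ))).toRingHom
  have hρ : ∀ t : 𝕋, ρ t = (t : Module.End ℂ (CuspForm (Gamma0 N) 2)) := fun _ => rfl
  have hker : RingHom.ker ρ ≤ Q := by
    intro t ht
    have h0 : t = 0 := Subtype.ext ht
    rw [h0]
    exact zero_mem _
  obtain ⟨g₀, lam, hg₀, hlam, hle⟩ := exists_eigenvector_ker_le ρ Q hker
  obtain ⟨g, hg, hgl⟩ := exists_normalizedEigenform_eigen hg₀ lam hlam
  refine ⟨g, hg, ?_⟩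
  -- `eigenChar hg = lam` as maps to `ℂ`
  have hcoe : ∀ t : 𝕋, ((eigenChar hg t : integralClosure ℤ ℂ) : ℂ) = lam t := by
    intro t
    rw [coe_eigenChar, hgl t, qCoeff_smul, hg.qCoeff_one, mul_one]
  have hker1 : RingHom.ker (eigenChar hg) = RingHom.ker lam := by
    ext t
    rw [RingHom.mem_ker, RingHom.mem_ker, ← hcoe t]
    exact ⟨fun h => by rw [h]; rfl, fun h => Subtype.ext h⟩
  rw [hker1]
  -- incomparability
  haveI : (RingHom.ker lam).IsPrime := RingHom.ker_isPrime lam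
  by_contra hne
  have hlt : RingHom.ker lam < Q := lt_of_le_of_ne hle hne
  obtain ⟨x, hxQ, hxl⟩ := Set.exists_of_ssubset hlt
  have hint : IsIntegral ℤ x := Algebra.IsIntegral.isIntegral x
  have h1 := Ideal.comap_lt_comap_of_integral_mem_sdiff hle ⟨hxQ, hxl⟩ hint
  have h2 : Q.comap (algebraMap ℤ 𝕋) = ⊥ := by
    rw [eq_bot_iff]
    intro n hn
    rw [Ideal.mem_comap, hQ, RingHom.mem_ker, eq_intCast, map_intCast] at hn
    rw [Ideal.mem_bot]
    exact_mod_cast hn
  rw [h2] at h1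
  exact not_lt_bot h1

end Fermat.Agent.S29lib.S30
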