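/-
S29lib / S30 (helper5), brick A1: extension of a character.
`ι : A → B` injective, `B` a finite `ℤ`-module (e.g. `A = 𝕋^S ⊂ B = 𝕋` Hecke algebras),
`χ : A → O` a ring hom to a domain with fraction field `K`.  Then `χ` extends to
`θ : B → O_{K₁}` (integral closure of `O` in a finite extension `K₁ ⊂ K̄` of `K`).
-/
import Mathlib
import Fermat.Agent.S29lib.Dvr.IntegralClosure

set_option autoImplicit false
set_option linter.style.haveILetI false

noncomputable section

namespace Fermat.Agent.S29lib.S30

open Fermat.Agent.S29lib.Dvr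

variable {A B : Type} [CommRing A] [CommRing B]

/-- a ring hom out of a finite `ℤ`-module ring into a field extension `M/K` lands in a
finite-dimensional intermediate field. -/
theorem exists_finiteDimensional_range_le [Module.Finite ℤ B]
    (K : Type) [Field K] (M : Type) [Field M] [Algebra K M] (f : B →+* M) :
    ∃ K₁ : IntermediateField K M, FiniteDimensional K K₁ ∧ ∀ b : B, f b ∈ K₁ := by
  classical
  obtain ⟨s, hs⟩ := (Module.Finite.fg_top : (⊤ : Submodule ℤ B).FG)
  have hint : ∀ b : B, IsIntegral ℤ b := fun b => Algebra.IsIntegral.isIntegral b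
  have hintK : ∀ x ∈ (f '' (s : Set B)), IsIntegral K x := by
    rintro _ ⟨b, -, rfl⟩
    exact (map_isIntegral_int f (hint b)).tower_top
  refine ⟨IntermediateField.adjoin K (f '' (s : Set B)), ?_, ?_⟩
  · have hfin : (f '' (s : Set B)).Finite := (Finset.finite_toSet s).image f
    haveI : Finite (f '' (s : Set B)) := hfin.to_subtype
    exact IntermediateField.finiteDimensional_adjoin hintK
  · intro b
    have hb : b ∈ Submodule.span ℤ (s : Set B) := by rw [hs]; exact Submodule.mem_top
    induction hb using Submodule.span_induction with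
    | mem x hx => exact IntermediateField.subset_adjoin K _ ⟨x, hx, rfl⟩
    | zero => rw [map_zero]; exact zero_mem _
    | add x y _ _ hx hy => rw [map_add]; exact add_mem hx hy
    | smul n x _ hx =>
      rw [zsmul_eq_mul, map_mul, map_intCast]
      exact mul_mem (intCast_mem _ n) hx

/-- extension of a ring hom to a domain along an integral injective ring hom, into an algebraically
closed field. -/
theorem exists_lift_algClosed [Module.Finite ℤ B] (ι : A →+* B) (hι : Function.Injective ι)
    {M : Type} [Field M] [IsAlgClosed M] (f : A →+* M) :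
    ∃ F : B →+* M, ∀ a, F (ι a) = f a := by
  classical
  letI : Algebra A B := ι.toAlgebra
  have hint : ∀ b : B, IsIntegral ℤ b := fun b => Algebra.IsIntegral.isIntegral b
  haveI : Algebra.IsIntegral A B := ⟨fun b => (hint b).tower_top⟩
  set P : Ideal A := RingHom.ker f with hP
  haveI : P.IsPrime := RingHom.ker_isPrime f
  obtain ⟨Q, -, hQprime, hQ⟩ := Ideal.exists_ideal_over_prime_of_isIntegral (S := B) P ⊥
    (by
      intro a ha
      have : ι a = 0 := ha
      rw [hP, RingHom.mem_ker, hι (this.trans (map_zero ι).symm), map_zero])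
  haveI : Q.IsPrime := hQprime
  haveI : Q.LiesOver P := ⟨hQ.symm⟩
  -- `A/P → M`
  let f₀ : A ⧸ P →+* M := Ideal.Quotient.lift P f (fun a ha => ha)
  have hf₀ : Function.Injective f₀ := by
    rw [injective_iff_map_eq_zero]
    intro x hx
    obtain ⟨a, rfl⟩ := Ideal.Quotient.mk_surjective x
    rw [Ideal.Quotient.lift_mk] at hx
    exact Ideal.Quotient.eq_zero_iff_mem.mpr hx
  letI : Algebra (A ⧸ P) M := f₀.toAlgebra
  haveI : FaithfulSMul (A ⧸ P) M := (faithfulSMul_iff_algebraMap_injective _ _).mpr hf₀
  haveI : Algebra.IsIntegral (A ⧸ P) (B ⧸ Q) := inferInstance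
  let ψ : (B ⧸ Q) →ₐ[A ⧸ P] M := IsAlgClosed.lift
  refine ⟨ψ.toRingHom.comp (Ideal.Quotient.mk Q), fun a => ?_⟩
  have h1 : (Ideal.Quotient.mk Q) (ι a) = algebraMap (A ⧸ P) (B ⧸ Q) (Ideal.Quotient.mk P a) := rfl
  rw [RingHom.comp_apply, h1]
  exact (ψ.commutes _).trans rfl

/-- **Extension of a character.** -/
theorem exists_extension [Module.Finite ℤ B] (ι : A →+* B) (hι : Function.Injective ι)
    (O : Type) [CommRing O] [IsDomain O] (χ : A →+* O) :
    ∃ (K₁ : IntermediateField (FractionRing O) (AlgebraicClosure (FractionRing O)))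
      (_ : FiniteDimensional (FractionRing O) K₁) (θ : B →+* OL O K₁),
      ∀ a, θ (ι a) = algebraMap O (OL O K₁) (χ a) := by
  classical
  set K := FractionRing O with hK
  set M := AlgebraicClosure K with hM
  obtain ⟨F, hF⟩ := exists_lift_algClosed ι hι ((algebraMap O M).comp χ)
  obtain ⟨K₁, hfd, hK₁⟩ := exists_finiteDimensional_range_le K M F
  have hint : ∀ b : B, IsIntegral ℤ b := fun b => Algebra.IsIntegral.isIntegral b
  let F₁ : B →+* K₁ := F.codRestrict K₁.toSubring hK₁
  have hF₁int : ∀ b : B, IsIntegral O (F₁ b) := fun b =>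
    (map_isIntegral_int F₁ (hint b)).tower_top
  let θ : B →+* OL O K₁ := F₁.codRestrict (OL O K₁).toSubring hF₁int
  refine ⟨K₁, hfd, θ, fun a => ?_⟩
  apply Subtype.ext
  apply Subtype.ext
  show F (ι a) = _
  rw [hF]
  rfl

end Fermat.Agent.S29lib.S30
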