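/-
S29lib / S30 (helper5), brick A: from a character `χ : heckeAlgebra N 2 S → 𝒪'` (characteristic
zero domain) to a normalised eigenform `g` on `Γ₀(N)` and a finite extension `K₁` of `Frac 𝒪'`
such that the eigenvalues of `g` and the values of `χ` are the two images of the same elements
`b ℓ` of a domain `R` (`= 𝕋 / ker θ`) under injective ring homs `R → ℂ`, `R → O_{K₁}`.
-/
import Mathlib
import Fermat.Agent.S29lib.S30.Extend
import Fermat.Agent.S29lib.S30.Eigen

set_option autoImplicit false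
set_option linter.style.haveILetI false

noncomputable section

namespace Fermat.Agent.S29lib.S30

open CuspForm ModularFormClass CongruenceSubgroup Fermat.Agent.S29lib.P Fermat.Agent.S29lib.Dvr

/-- **Brick A.** -/
theorem exists_eigenform_of_char (N : ℕ) [NeZero N] (S : Set ℕ)
    (𝒪' : Type) [CommRing 𝒪'] [IsDomain 𝒪'] [CharZero 𝒪']
    (χ : CuspForm.heckeAlgebra N 2 S →+* 𝒪') :
    ∃ (K₁ : IntermediateField (FractionRing 𝒪') (AlgebraicClosure (FractionRing 𝒪')))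
      (_ : FiniteDimensional (FractionRing 𝒪') K₁)
      (g : CuspForm (Gamma0 N) 2) (_ : g.IsNormalizedEigenform)
      (R : Type) (_ : CommRing R) (_ : IsDomain R) (eC : R →+* ℂ) (e1 : R →+* OL 𝒪' K₁)
      (b : Nat.Primes → R),
      Function.Injective eC ∧ Function.Injective e1 ∧
      (∀ ℓ : Nat.Primes, eC (b ℓ) = qCoeff ⇑g (ℓ : ℕ)) ∧
      ∀ (ℓ : ℕ) (hℓ : ℓ.Prime) (hℓN : ¬ ℓ ∣ N) (hℓS : ℓ ∉ S),
        e1 (b ⟨ℓ, hℓ⟩) = algebraMap 𝒪' (OL 𝒪' K₁) (χ (CuspForm.heckeAlgebra.T hℓ hℓN hℓS)) := by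
  classical
  haveI : Module.Finite ℤ (CuspForm.heckeAlgebra N 2 (∅ : Set ℕ)) := Fermat.Agent.S22.result N 2 ∅
  let ι : CuspForm.heckeAlgebra N 2 S →+* CuspForm.heckeAlgebra N 2 (∅ : Set ℕ) :=
    (Subalgebra.inclusion (CuspForm.heckeAlgebra_mono (Set.empty_subset S))).toRingHom
  have hι : Function.Injective ι :=
    Subalgebra.inclusion_injective (CuspForm.heckeAlgebra_mono (Set.empty_subset S))
  obtain ⟨K₁, hfd, θ, hθ⟩ := exists_extension ι hι 𝒪' χ
  -- `O_{K₁}` has characteristic zero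
  have hinj : Function.Injective (algebraMap 𝒪' (OL 𝒪' K₁)) := by
    intro x y hxy
    have h1 := congrArg (fun z : OL 𝒪' K₁ => ((z : K₁) : AlgebraicClosure (FractionRing 𝒪'))) hxy
    have h2 : Function.Injective
        (algebraMap 𝒪' (AlgebraicClosure (FractionRing 𝒪'))) := by
      rw [IsScalarTower.algebraMap_eq 𝒪' (FractionRing 𝒪') (AlgebraicClosure (FractionRing 𝒪'))]
      exact (algebraMap (FractionRing 𝒪') (AlgebraicClosure (FractionRing 𝒪'))).injective.comp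
        (IsFractionRing.injective 𝒪' (FractionRing 𝒪'))
    exact h2 h1
  haveI : CharZero (OL 𝒪' K₁) := charZero_of_injective_algebraMap hinj
  obtain ⟨g, hg, hker⟩ := exists_eigenform_ker_eq θ
  set Q : Ideal (CuspForm.heckeAlgebra N 2 (∅ : Set ℕ)) := RingHom.ker θ with hQ
  haveI : Q.IsPrime := RingHom.ker_isPrime θ
  let eZ : (CuspForm.heckeAlgebra N 2 (∅ : Set ℕ)) ⧸ Q →+* integralClosure ℤ ℂ :=
    Ideal.Quotient.lift Q (eigenChar hg) (fun a ha => by
      rw [← RingHom.mem_ker, hker]; exact ha)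
  have heZ : Function.Injective eZ :=
    RingHom.lift_injective_of_ker_le_ideal Q _ (le_of_eq hker)
  let eC : (CuspForm.heckeAlgebra N 2 (∅ : Set ℕ)) ⧸ Q →+* ℂ :=
    (algebraMap (integralClosure ℤ ℂ) ℂ).comp eZ
  let e1 : (CuspForm.heckeAlgebra N 2 (∅ : Set ℕ)) ⧸ Q →+* OL 𝒪' K₁ :=
    Ideal.Quotient.lift Q θ (fun a ha => ha)
  have he1 : Function.Injective e1 := RingHom.lift_injective_of_ker_le_ideal Q _ le_rfl
  refine ⟨K₁, hfd, g, hg, _ ⧸ Q, inferInstance, inferInstance, eC, e1,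
    fun ℓ => Ideal.Quotient.mk Q (heckeAllT ℓ), ?_, he1, ?_, ?_⟩
  · exact Subtype.val_injective.comp heZ
  · intro ℓ
    show ((eigenChar hg (heckeAllT ℓ) : integralClosure ℤ ℂ) : ℂ) = _
    rw [eigenChar_heckeAllT]
    rfl
  · intro ℓ hℓ hℓN hℓS
    show θ (heckeAllT ⟨ℓ, hℓ⟩) = _
    rw [← hθ]
    congr 1
    unfold heckeAllT
    rw [dif_neg hℓN]
    rfl

end Fermat.Agent.S29lib.S30
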