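/-
S29lib / S30 (helper5), brick B: the dimension of the common kernel of a family of matrices with
entries in a domain `R` does not depend on the field into which `R` is embedded.
(Two applications of helper8's `E.finrank_kerL` over the valuation ring `Frac R`.)
-/
import Mathlib
import Fermat.Agent.S29lib.E.KerCons

set_option autoImplicit false
set_option linter.style.haveILetI false

noncomputable section

namespace Fermat.Agent.S29lib.S30

open Matrix Fermat.Agent.S29lib.E

/-- **Field independence of the dimension of a common kernel.** -/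
theorem finrank_iInf_ker_map_eq {R : Type*} [CommRing R] [IsDomain R]
    {ι : Type*} [Fintype ι] [DecidableEq ι] {I : Type*} (A : I → Matrix ι ι R)
    {L₁ L₂ : Type*} [Field L₁] [Field L₂] (e₁ : R →+* L₁) (e₂ : R →+* L₂)
    (h₁ : Function.Injective e₁) (h₂ : Function.Injective e₂) :
    Module.finrank L₁ ↥(⨅ i, LinearMap.ker ((A i).map e₁).mulVecLin) =
      Module.finrank L₂ ↥(⨅ i, LinearMap.ker ((A i).map e₂).mulVecLin) := by
  classical
  set O := FractionRing R with hO
  let A' : I → Matrix ι ι O := fun i => (A i).map (algebraMap R O)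
  let f₁ : O →+* L₁ := IsFractionRing.lift h₁
  let f₂ : O →+* L₂ := IsFractionRing.lift h₂
  have hA₁ : ∀ i, (A' i).map f₁ = (A i).map e₁ := by
    intro i
    ext j j'
    simp only [A', Matrix.map_apply]
    exact IsFractionRing.lift_algebraMap h₁ _
  have hA₂ : ∀ i, (A' i).map f₂ = (A i).map e₂ := by
    intro i
    ext j j'
    simp only [A', Matrix.map_apply]
    exact IsFractionRing.lift_algebraMap h₂ _
  obtain ⟨S, v, hSv⟩ := exists_echelonBasis (kerO A') (isSat_kerO A')
  have k₁ := finrank_kerL A' f₁ f₁.injective hSv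
  have k₂ := finrank_kerL A' f₂ f₂.injective hSv
  have e₁' : (⨅ i, LinearMap.ker ((A' i).map f₁).mulVecLin) =
      ⨅ i, LinearMap.ker ((A i).map e₁).mulVecLin := by
    congr 1; funext i; rw [hA₁]
  have e₂' : (⨅ i, LinearMap.ker ((A' i).map f₂).mulVecLin) =
      ⨅ i, LinearMap.ker ((A i).map e₂).mulVecLin := by
    congr 1; funext i; rw [hA₂]
  rw [← e₁', ← e₂', k₁, k₂]

end Fermat.Agent.S29lib.S30
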