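/-
S29lib / S30 (helper5), bricks A+B glued: for a `ComparisonData` with eigen-inputs for every
normalised eigenform, a character `χ` of the Hecke algebra away from `S` with values in a
characteristic-zero domain `𝒪'` yields a finite extension `K₁` of `Frac 𝒪'` and eigenvalues
`a₁ ℓ ∈ O_{K₁}` (all primes `ℓ`) extending `χ (T_ℓ)` (`ℓ ∉ S`), whose simultaneous eigenspace in
`K₁^r` is 2-dimensional (the shape of the hypothesis `hfin` of brick C, `S30.exists_adic_lattice`).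
-/
import Mathlib
import Fermat.Agent.S29lib.S30.EigenOfChar
import Fermat.Agent.S29lib.S30.FieldIndep
import Fermat.Agent.S29lib.Interface.Basic

set_option autoImplicit false
set_option linter.style.haveILetI false

noncomputable section

namespace Fermat.Agent.S29lib.S30

open CuspForm ModularFormClass CongruenceSubgroup Fermat.Agent.S29lib.Dvr Matrix

/-- the eigen-matrices `t i - b i` over a ring, and their images -/
theorem eigMat_map {R L : Type*} [CommRing R] [CommRing L] {r : ℕ}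
    (t : Matrix (Fin r) (Fin r) ℤ) (b : R) (e : R →+* L) :
    (t.map (Int.cast : ℤ → R) - b • (1 : Matrix (Fin r) (Fin r) R)).map e =
      t.map (Int.cast : ℤ → L) - e b • (1 : Matrix (Fin r) (Fin r) L) := by
  ext j j'
  simp only [Matrix.map_apply, Matrix.sub_apply, Matrix.smul_apply, smul_eq_mul, map_sub, map_mul,
    map_intCast]
  congr 1
  by_cases h : j = j'
  · subst h
    simp
  · simp [h]

theorem ker_mulVecLin_eigMat {L : Type*} [Field L] {r : ℕ} (t : Matrix (Fin r) (Fin r) ℤ)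
    (c : L) :
    LinearMap.ker (t.map (Int.cast : ℤ → L) - c • (1 : Matrix (Fin r) (Fin r) L)).mulVecLin =
      LinearMap.ker (Matrix.toLin' (t.map (Int.cast : ℤ → L)) - c • 1) := by
  congr 1
  apply LinearMap.ext
  intro x
  rw [Matrix.mulVecLin_apply, Matrix.sub_mulVec, Matrix.smul_mulVec, Matrix.one_mulVec,
    LinearMap.sub_apply, Matrix.toLin'_apply, LinearMap.smul_apply, Module.End.one_apply]

/-- **transfer of the eigen-dimension** between two fields containing the eigenvalues. -/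
theorem finrank_eigen_transfer {R : Type*} [CommRing R] [IsDomain R] {r : ℕ} {I : Type*}
    (t : I → Matrix (Fin r) (Fin r) ℤ) (b : I → R)
    {L₁ L₂ : Type*} [Field L₁] [Field L₂] (e₁ : R →+* L₁) (e₂ : R →+* L₂)
    (h₁ : Function.Injective e₁) (h₂ : Function.Injective e₂) :
    Module.finrank L₁ ↥(⨅ i, LinearMap.ker
        (Matrix.toLin' ((t i).map (Int.cast : ℤ → L₁)) - e₁ (b i) • 1)) =
      Module.finrank L₂ ↥(⨅ i, LinearMap.ker
        (Matrix.toLin' ((t i).map (Int.cast : ℤ → L₂)) - e₂ (b i) • 1)) := by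
  have key := finrank_iInf_ker_map_eq
    (fun i => (t i).map (Int.cast : ℤ → R) - b i • (1 : Matrix (Fin r) (Fin r) R)) e₁ e₂ h₁ h₂
  have k₁ : (⨅ i, LinearMap.ker (((t i).map (Int.cast : ℤ → R) -
      b i • (1 : Matrix (Fin r) (Fin r) R)).map e₁).mulVecLin) =
      ⨅ i, LinearMap.ker (Matrix.toLin' ((t i).map (Int.cast : ℤ → L₁)) - e₁ (b i) • 1) := by
    congr 1; funext i; rw [eigMat_map, ker_mulVecLin_eigMat]
  have k₂ : (⨅ i, LinearMap.ker (((t i).map (Int.cast : ℤ → R) -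
      b i • (1 : Matrix (Fin r) (Fin r) R)).map e₂).mulVecLin) =
      ⨅ i, LinearMap.ker (Matrix.toLin' ((t i).map (Int.cast : ℤ → L₂)) - e₂ (b i) • 1) := by
    congr 1; funext i; rw [eigMat_map, ker_mulVecLin_eigMat]
  rw [← k₁, ← k₂]
  exact key

/-- **Bricks A + B.** -/
theorem exists_eigen_data {N p : ℕ} [NeZero N] (C : ComparisonData N p)
    (hC : ∀ g : CuspForm (Gamma0 N) 2, g.IsNormalizedEigenform → Nonempty (EigenInput C g))
    (S : Set ℕ) (𝒪' : Type) [CommRing 𝒪'] [IsDomain 𝒪'] [CharZero 𝒪']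
    (χ : CuspForm.heckeAlgebra N 2 S →+* 𝒪') :
    ∃ (K₁ : IntermediateField (FractionRing 𝒪') (AlgebraicClosure (FractionRing 𝒪')))
      (_ : FiniteDimensional (FractionRing 𝒪') K₁) (a₁ : Nat.Primes → OL 𝒪' K₁),
      Module.finrank K₁ ↥(⨅ ℓ : Nat.Primes, LinearMap.ker
        (Matrix.toLin' ((C.t ℓ).map (Int.cast : ℤ → K₁)) -
          (algebraMap (OL 𝒪' K₁) K₁ (a₁ ℓ)) • 1)) = 2 ∧
      ∀ (ℓ : ℕ) (hℓ : ℓ.Prime) (hℓN : ¬ ℓ ∣ N) (hℓS : ℓ ∉ S),
        a₁ ⟨ℓ, hℓ⟩ = algebraMap 𝒪' (OL 𝒪' K₁) (χ (CuspForm.heckeAlgebra.T hℓ hℓN hℓS)) := by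
  classical
  obtain ⟨K₁, hfd, g, hg, R, _, _, eC, e1, b, heC, he1, hbC, hb1⟩ :=
    exists_eigenform_of_char N S 𝒪' χ
  obtain ⟨EI⟩ := hC g hg
  refine ⟨K₁, hfd, fun ℓ => e1 (b ℓ), ?_, hb1⟩
  have hinj : Function.Injective ((algebraMap (OL 𝒪' K₁) K₁).comp e1) :=
    (Subtype.val_injective).comp he1
  have key := finrank_eigen_transfer C.t b eC ((algebraMap (OL 𝒪' K₁) K₁).comp e1) heC hinj
  have hfin := EI.finrank_eigen
  have hrw : (⨅ ℓ : Nat.Primes, LinearMap.ker
      (Matrix.toLin' ((C.t ℓ).map (Int.cast : ℤ → ℂ)) - eC (b ℓ) • 1)) =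
      ⨅ ℓ : Nat.Primes, LinearMap.ker
      (Matrix.toLin' ((C.t ℓ).map (Int.cast : ℤ → ℂ)) -
        ((EI.a ℓ : integralClosure ℤ ℂ) : ℂ) • 1) := by
    congr 1; funext ℓ; rw [hbC, EI.a_eq]
  rw [hrw, hfin] at key
  exact key.symm

end Fermat.Agent.S29lib.S30
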